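import Fermat.Agent.S56.H14.InvInj
import Fermat.Agent.S55.Bridge.InertiaConj
import Fermat.Agent.S55.BLocal.Prime

/-!
# Row S56 — REC-Q input: at a prime `q ≡ 1 mod p` the decomposition group fixes `μ_p` (helper14)

* `exists_int_sub_mem_nonunits` : `A | q`, `t ∈ ℚ̄` with `t ^ q = t` ⟹ `t ≡ n mod 𝔪_A` for some
  integer `n` (the residue class of `t` lies in the prime field);
* `cycloChar_eq_one_of_mem_decomposition` : `q ≠ p`, `p ∣ q - 1`, `σ ∈ D_A` ⟹ `cycloChar p σ = 1`;
* `muLoc_ρ_eq_one` : `μ_p` is a trivial module for the local Galois group `Gl q`;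
* `inv_bijective_of_dvd_sub_one` : S55's `inv_q` is bijective on `H²(G_q, μ_p)` for `q ≡ 1 mod p`.

Nothing unproved in this file.
-/

set_option autoImplicit false

noncomputable section

namespace Fermat.Agent.S56.H14

open groupCohomology Fermat.Agent.S55.PT ExtCitation Polynomial

section Residue

variable (A : ValuationSubring (AlgebraicClosure ℚ))

/-- The residue field at a place over `q` has characteristic `q`. -/
lemma charP_residueField {q : ℕ} (hq : q.Prime) (hA : A.LiesOverPrime q) :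
    CharP (IsLocalRing.ResidueField A) q := by
  obtain ⟨c, hc⟩ := CharP.exists (IsLocalRing.ResidueField A)
  have hq0 : ((q : ℕ) : IsLocalRing.ResidueField A) = 0 := by
    have hmem : ((q : ℕ) : AlgebraicClosure ℚ) ∈ A := by
      have := natCast_mem A q
      exact this
    have h1 : (⟨(q : AlgebraicClosure ℚ), hmem⟩ : A) ∈ IsLocalRing.maximalIdeal A := by
      rw [ValuationSubring.valuation_lt_one_iff]
      exact (A.mem_nonunits_iff).mp hA
    have h2 : IsLocalRing.residue A ⟨(q : AlgebraicClosure ℚ), hmem⟩ = 0 :=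
      (IsLocalRing.residue_eq_zero_iff _).2 h1
    have h3 : (⟨(q : AlgebraicClosure ℚ), hmem⟩ : A) = ((q : ℕ) : A) := by
      apply Subtype.ext
      simp
    rw [h3, map_natCast] at h2
    exact h2
  have hdvd : c ∣ q := (CharP.cast_eq_zero_iff (IsLocalRing.ResidueField A) c q).1 hq0
  rcases (Nat.dvd_prime hq).1 hdvd with h | h
  · subst h
    exact absurd rfl (CharP.char_ne_one (IsLocalRing.ResidueField A) 1)
  · subst h
    exact hc

/-- If `t ^ q = t` then `t` is congruent to an integer modulo the maximal ideal of a place over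
`q`. -/
theorem exists_int_sub_mem_nonunits {q : ℕ} (hq : q.Prime) (hA : A.LiesOverPrime q)
    {t : AlgebraicClosure ℚ} (htA : t ∈ A) (ht : t ^ q = t) :
    ∃ n : ℕ, t - (n : AlgebraicClosure ℚ) ∈ A.nonunits := by
  have : Fact q.Prime := ⟨hq⟩
  have := charP_residueField A hq hA
  let κ := IsLocalRing.ResidueField A
  let f : ZMod q →+* κ := ZMod.castHom (dvd_refl q) κ
  let tb : κ := IsLocalRing.residue A ⟨t, htA⟩
  have htb : tb ^ q = tb := by
    show (IsLocalRing.residue A ⟨t, htA⟩) ^ q = IsLocalRing.residue A ⟨t, htA⟩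
    rw [← map_pow]
    congr 1
    apply Subtype.ext
    simpa using ht
  -- `∏_a (X - a) = X ^ q - X` over `ZMod q`
  have hprod : (∏ a : ZMod q, (X - C a)) = (X ^ q - X : (ZMod q)[X]) := by
    have hroots := FiniteField.roots_X_pow_card_sub_X (ZMod q)
    rw [ZMod.card] at hroots
    have hmonic : (X ^ q - X : (ZMod q)[X]).Monic :=
      monic_X_pow_sub (by rw [degree_X]; exact_mod_cast hq.one_lt)
    have hdeg : (X ^ q - X : (ZMod q)[X]).natDegree = q :=
      FiniteField.X_pow_card_sub_X_natDegree_eq (ZMod q) hq.one_lt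
    have hcard : Multiset.card (X ^ q - X : (ZMod q)[X]).roots
        = (X ^ q - X : (ZMod q)[X]).natDegree := by
      rw [hroots, hdeg, Finset.card_val, Finset.card_univ, ZMod.card]
    have := prod_multiset_X_sub_C_of_monic_of_roots_card_eq hmonic hcard
    rw [hroots] at this
    rw [← this]
    rfl
  have heval : ∏ a : ZMod q, (tb - f a) = 0 := by
    have h1 := congrArg (fun P => eval₂ f tb P) hprod
    simp only [eval₂_finsetProd, eval₂_sub, eval₂_X, eval₂_C, eval₂_X_pow] at h1
    rw [h1, htb, sub_self]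
  obtain ⟨a, -, ha⟩ := Finset.prod_eq_zero_iff.1 heval
  obtain ⟨n, hn'⟩ : ∃ n : ℕ, f a = (n : κ) := by
    refine ⟨a.val, ?_⟩
    have h6 : f ((a.val : ℕ) : ZMod q) = ((a.val : ℕ) : κ) := map_natCast f a.val
    rwa [ZMod.natCast_zmod_val a] at h6
  refine ⟨n, ?_⟩
  have hn : ((n : ℕ) : AlgebraicClosure ℚ) ∈ A := natCast_mem A n
  have h2 : IsLocalRing.residue A (⟨t, htA⟩ - ⟨((n : ℕ) : AlgebraicClosure ℚ), hn⟩) = 0 := by
    rw [map_sub]
    have h3 : (⟨((n : ℕ) : AlgebraicClosure ℚ), hn⟩ : A) = ((n : ℕ) : A) := by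
      apply Subtype.ext
      simp
    rw [h3, map_natCast, ← hn']
    exact ha
  have h5 := (IsLocalRing.residue_eq_zero_iff _).1 h2
  rw [ValuationSubring.valuation_lt_one_iff] at h5
  rw [A.mem_nonunits_iff]
  exact h5

/-- The decomposition group at a place over `q ≡ 1 mod p` (`q ≠ p`) fixes the `p`-th roots of
unity. -/
theorem cycloChar_eq_one_of_mem_decomposition (p : ℕ) [Fact p.Prime] {q : ℕ} (hq : q.Prime)
    (hqp : q ≠ p) (hdvd : p ∣ q - 1) (hA : A.LiesOverPrime q)
    (σ : AlgebraicClosure ℚ ≃ₐ[ℚ] AlgebraicClosure ℚ) (hσ : σ ∈ A.decompositionSubgroup ℚ) :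
    cycloChar p σ = 1 := by
  have hp : p.Prime := Fact.out
  apply Fermat.Agent.S55.Bridge.cycloChar_eq_one_of_fixes
  intro t ht
  have htp : (t : AlgebraicClosure ℚ) ^ p = 1 := by
    have := (mem_rootsOfUnity p t).1 ht
    rw [← Units.val_pow_eq_pow_val, this, Units.val_one]
  by_contra hne
  have hpv := Fermat.Agent.S55.Bridge.val_prime_eq_one (A := A) hA hq hp hqp
  have hσt : (σ (t : AlgebraicClosure ℚ)) ^ p = 1 := by rw [← map_pow, htp, map_one]
  have h1 := Fermat.Agent.S55.Bridge.val_sub_roots_eq_one (A := A) hp.ne_zero hpv hσt htp hne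
  have hvt : A.valuation (t : AlgebraicClosure ℚ) ≤ 1 := by
    have h : (A.valuation (t : AlgebraicClosure ℚ)) ^ p = 1 := by rw [← map_pow, htp, map_one]
    exact ((pow_eq_one_iff.1 h).resolve_right hp.ne_zero).le
  have htA : (t : AlgebraicClosure ℚ) ∈ A := (A.valuation_le_one_iff _).1 hvt
  have htq : (t : AlgebraicClosure ℚ) ^ q = t := by
    obtain ⟨m, hm⟩ := hdvd
    have h2 : q = p * m + 1 := by
      have := Nat.sub_add_cancel hq.one_le
      omega
    rw [h2, pow_succ, pow_mul, htp, one_pow, one_mul]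
  obtain ⟨n, hn⟩ := exists_int_sub_mem_nonunits A hq hA htA htq
  -- `σ` preserves the maximal ideal
  have hσn : σ ((t : AlgebraicClosure ℚ) - (n : AlgebraicClosure ℚ)) ∈ A.nonunits := by
    have hD := (Fermat.Agent.S55.Bridge.mem_decompositionSubgroup_iff A σ).1 hσ
    rw [A.mem_nonunits_iff_or] at hn ⊢
    rcases hn with h0 | hinv
    · left
      rw [h0, map_zero]
    · right
      rw [← map_inv₀, hD]
      exact hinv
  rw [map_sub, map_natCast] at hσn
  have h3 : A.valuation (σ (t : AlgebraicClosure ℚ) - (t : AlgebraicClosure ℚ)) < 1 := by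
    have e : σ (t : AlgebraicClosure ℚ) - (t : AlgebraicClosure ℚ)
        = (σ (t : AlgebraicClosure ℚ) - (n : AlgebraicClosure ℚ))
          - ((t : AlgebraicClosure ℚ) - (n : AlgebraicClosure ℚ)) := by ring
    rw [e]
    exact lt_of_le_of_lt (Valuation.map_sub _ _ _)
      (max_lt ((A.mem_nonunits_iff).1 hσn) ((A.mem_nonunits_iff).1 hn))
  rw [h1] at h3
  exact lt_irrefl _ h3

end Residue

section Arith

variable {p : ℕ} [Fact p.Prime]

/-- `μ_p` is a trivial module for the local Galois group at a prime `q ≡ 1 mod p`, `q ≠ p`. -/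
theorem muLoc_ρ_eq_one (q : Nat.Primes) (hqp : (q : ℕ) ≠ p) (hdvd : p ∣ (q : ℕ) - 1)
    (s : Gl q) : (muLoc p q).ρ s = 1 := by
  have h1 : cycloChar p (rl q s) = 1 :=
    cycloChar_eq_one_of_mem_decomposition (primeLocalPlace q) p q.2 hqp hdvd
      (Fermat.Agent.S55.BLocal.primeLocalPlace_liesOver q) _
      (Fermat.Agent.S55.BLocal.primeLocalToGlobal_mem q s)
  apply LinearMap.ext
  intro c
  show (mu p).ρ (rl q s) c = c
  show ((cycloChar p (rl q s) : (ZMod p)ˣ) : ZMod p) • c = c
  rw [h1, Units.val_one, one_smul]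

/-- **S55's `inv_q` is bijective on `H²(G_q, μ_p)`** for `q ≡ 1 mod p`, `q ≠ p` (from A6). -/
theorem inv_bijective_of_dvd_sub_one {S : Finset Nat.Primes} {inv : InvFamily p S}
    (h : TopLocIndSpec inv) (v : ↥S) (hqp : ((v : Nat.Primes) : ℕ) ≠ p)
    (hdvd : p ∣ ((v : Nat.Primes) : ℕ) - 1) : Function.Bijective (inv v) :=
  inv_bijective_of_topLocInd h v (muLoc_ρ_eq_one v.1 hqp hdvd)

end Arith

end Fermat.Agent.S56.H14

end
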