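import Fermat.Agent.S56.H14.InvRecCore
import Fermat.Agent.S56.H14.MuTriv
import Fermat.Agent.S56.Defs

/-!
# Row S56 — leaf INVREC of REC-Q: local invariants of plain twisted 2-cocycles (helper14)

S55-facing.  Plain-function language of the row: `K` a finite field of characteristic `p`,
`z : G_ℚ × G_ℚ → K` a *twisted 2-cocycle* (values in `K(1)`, the cyclotomic character encoded
by `IsCycExp`), level-constant for a finite extension unramified outside `Σ`
(the Prelude's `IsLevelConstantS₂ Σ`).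

From S55's interface `PT.InvSpec p Σ` (invariant maps on `H²(G_v, μ_p)` with reciprocity and
`Br(E)[p] ≅ ℤ/p`) we construct `invK v z ∈ K` (`v ∈ Σ`) such that, on such `z`:

* `invK v` is additive and `K`-homogeneous;
* `invK v z = 0` if `z` is a twisted coboundary on the decomposition group `D_v` of the
  Prelude's place `primeLocalPlace v`;
* conversely, for `v ≡ 1 mod p`, `v ≠ p`: `invK v z = 0` implies that `z` is a twisted
  coboundary on `D_v`;
* reciprocity: `∑_{v ∈ Σ} invK v z = 0`.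

Main statement: `invRec : InvRecStatement`.  Nothing unproved in this file.
-/

set_option autoImplicit false

noncomputable section

namespace Fermat.Agent.S56.H14

open groupCohomology Fermat.Agent.S55.PT ExtCitation

/-! ### Plain-function definitions -/

section Defs

variable (p : ℕ) {K : Type} [Field K]

/-- `z` is a twisted 2-cocycle: a 2-cocycle with values in `K(1)`. -/
def IsTw2Cocycle (z : Fermat.Agent.S56.GQ × Fermat.Agent.S56.GQ → K) : Prop :=
  ∀ σ τ υ : Fermat.Agent.S56.GQ, ∀ a : ℕ, Fermat.Agent.S56.IsCycExp p σ a →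
    (a : K) * z (τ, υ) - z (σ * τ, υ) + z (σ, τ * υ) - z (σ, τ) = 0

/-- On the subgroup `D`, `z` is the twisted coboundary of a cochain `lam` which is level-constant
on `D`. -/
def IsTw2CoboundaryOn (D : Subgroup Fermat.Agent.S56.GQ)
    (z : Fermat.Agent.S56.GQ × Fermat.Agent.S56.GQ → K) : Prop :=
  ∃ lam : Fermat.Agent.S56.GQ → K,
    (∃ F : IntermediateField ℚ Fermat.Agent.S56.Qb, FiniteDimensional ℚ F ∧
      ∀ σ ∈ D, ∀ τ ∈ D, τ ∈ F.fixingSubgroup → lam (σ * τ) = lam σ) ∧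
    ∀ σ ∈ D, ∀ τ ∈ D, ∀ a : ℕ, Fermat.Agent.S56.IsCycExp p σ a →
      z (σ, τ) = (a : K) * lam τ - lam (σ * τ) + lam σ

/-- The 2-cocycles on which the invariants are defined. -/
def IsGood2 (S : Finset Nat.Primes) (z : Fermat.Agent.S56.GQ × Fermat.Agent.S56.GQ → K) : Prop :=
  IsTw2Cocycle p z ∧ IsLevelConstantS₂ S z

end Defs

/-- **(INVREC)** — the S55-facing leaf of REC-Q. -/
def InvRecStatement : Prop :=
  ∀ (p : ℕ) [Fact p.Prime] (S : Finset Nat.Primes) (K : Type) [Field K] [CharP K p] [Finite K],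
    InvSpec p S →
    ∃ invK : ↥S → (Fermat.Agent.S56.GQ × Fermat.Agent.S56.GQ → K) → K,
      (∀ (v : ↥S) z z', IsGood2 p S z → IsGood2 p S z' →
        invK v (z + z') = invK v z + invK v z') ∧
      (∀ (v : ↥S) (c : K) z, IsGood2 p S z → invK v (c • z) = c * invK v z) ∧
      (∀ (v : ↥S) z, IsGood2 p S z →
        IsTw2CoboundaryOn p ((primeLocalPlace v.1).decompositionSubgroup ℚ) z → invK v z = 0) ∧
      (∀ (v : ↥S) z, IsGood2 p S z → ((v.1 : Nat.Primes) : ℕ) ≠ p →
        p ∣ ((v.1 : Nat.Primes) : ℕ) - 1 → invK v z = 0 →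
        IsTw2CoboundaryOn p ((primeLocalPlace v.1).decompositionSubgroup ℚ) z) ∧
      (∀ z, IsGood2 p S z → ∑ v : ↥S, invK v z = 0)

/-! ### Cyclotomic exponents and the cyclotomic character -/

section Cyc

variable {p : ℕ} [Fact p.Prime]

/-- Every automorphism has a cyclotomic exponent on the `p`-th roots of unity
(copy of `exists_isCycExp` of `H14/CycExp.lean`, to keep the import closure small). -/
theorem exists_cycExp_invRec (σ : Fermat.Agent.S56.GQ) :
    ∃ a : ℕ, Fermat.Agent.S56.IsCycExp p σ a := by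
  have hp : p.Prime := Fact.out
  have : NeZero p := ⟨hp.ne_zero⟩
  obtain ⟨ζ, hζ⟩ := HasEnoughRootsOfUnity.exists_primitiveRoot (AlgebraicClosure ℚ) p
  have h1 : (σ ζ) ^ p = 1 := by rw [← map_pow, hζ.pow_eq_one, map_one]
  obtain ⟨a, -, ha⟩ := hζ.eq_pow_of_pow_eq_one h1
  refine ⟨a, fun μ hμ => ?_⟩
  obtain ⟨i, -, rfl⟩ := hζ.eq_pow_of_pow_eq_one hμ
  rw [map_pow, ← ha, ← pow_mul, ← pow_mul, mul_comm]

/-- A cyclotomic exponent of `σ` is a lift of `cycloChar p σ`. -/
theorem natCast_eq_cycloChar {σ : Fermat.Agent.S56.GQ} {a : ℕ}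
    (h : Fermat.Agent.S56.IsCycExp p σ a) :
    ((a : ℕ) : ZMod p) = ((cycloChar p σ : (ZMod p)ˣ) : ZMod p) := by
  have hp : p.Prime := Fact.out
  have : NeZero p := ⟨hp.ne_zero⟩
  have : NeZero ((p : ℕ) : AlgebraicClosure ℚ) := ⟨Nat.cast_ne_zero.mpr hp.ne_zero⟩
  obtain ⟨ζ, hζ⟩ := HasEnoughRootsOfUnity.exists_primitiveRoot (AlgebraicClosure ℚ) p
  have hζ0 : ζ ≠ 0 := hζ.ne_zero hp.ne_zero
  let t : (AlgebraicClosure ℚ)ˣ := Units.mk0 ζ hζ0
  have ht : t ∈ rootsOfUnity p (AlgebraicClosure ℚ) := by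
    rw [mem_rootsOfUnity]
    apply Units.ext
    simp only [t, Units.val_pow_eq_pow_val, Units.val_mk0, Units.val_one]
    exact hζ.pow_eq_one
  have h1 : σ ζ = ζ ^ ((cycloChar p σ : (ZMod p)ˣ) : ZMod p).val :=
    Fermat.Agent.S55.Bridge.cycloChar_spec p σ ht
  have h2 : σ ζ = ζ ^ a := h ζ hζ.pow_eq_one
  have h3 : ζ ^ (a % p) = ζ ^ ((cycloChar p σ : (ZMod p)ˣ) : ZMod p).val := by
    rw [← h1, h2]
    conv_rhs => rw [← Nat.div_add_mod a p, pow_add, pow_mul, hζ.pow_eq_one, one_pow, one_mul]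
  have h4 : a % p = ((cycloChar p σ : (ZMod p)ˣ) : ZMod p).val :=
    hζ.pow_inj (Nat.mod_lt _ hp.pos) (ZMod.val_lt _) h3
  have h5 : ((a : ℕ) : ZMod p) = ((a % p : ℕ) : ZMod p) := by
    rw [ZMod.natCast_eq_natCast_iff]
    exact (Nat.mod_modEq a p).symm
  rw [h5, h4, ZMod.natCast_val, ZMod.cast_id]

end Cyc

/-! ### From plain 2-cocycles to classes -/

section Arith

variable {p : ℕ} [Fact p.Prime] {S : Finset Nat.Primes}
variable {K : Type} [Field K] [Algebra (ZMod p) K]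

/-- `K(1)` as a representation of `G_ℚ` over `F_p`. -/
abbrev K1 (p : ℕ) [Fact p.Prime] (K : Type) [Field K] [Algebra (ZMod p) K] :
    Rep.{0, 0, 0} (ZMod p) GQ := twTriv (cycloChar p) K

lemma natCast_smul_eq (a : ℕ) (w : K) : ((a : ℕ) : ZMod p) • w = (a : K) * w := by
  rw [Algebra.smul_def, map_natCast]

lemma K1_ρ_apply {σ : GQ} {a : ℕ} (h : Fermat.Agent.S56.IsCycExp p σ a) (w : K) :
    (K1 p K).ρ σ w = (a : K) * w := by
  rw [twTriv_ρ_apply, ← natCast_eq_cycloChar h, natCast_smul_eq]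

lemma K1_ρ_rl_apply {v : Nat.Primes} {s : Gl v} {a : ℕ}
    (h : Fermat.Agent.S56.IsCycExp p (rl v s) a) (w : K) :
    (Rep.res (rl v) (K1 p K)).ρ s w = (a : K) * w :=
  K1_ρ_apply h w

/-- A good plain 2-cocycle is a level-constant 2-cocycle of `K(1)`. -/
lemma mem_Z2_of_isGood2 {z : GQ × GQ → K} (hz : IsGood2 p S z) :
    z ∈ (globalLevels S).Z2 (K1 p K) := by
  refine ⟨?_, (isLC₂_globalLevels_iff S z).2 hz.2⟩
  show z ∈ cocycles₂ (K1 p K)
  rw [mem_cocycles₂_def]
  intro g h j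
  obtain ⟨a, ha⟩ := exists_cycExp_invRec (p := p) g
  rw [K1_ρ_apply ha]
  exact hz.1 g h j a ha

/-- the class of a good plain 2-cocycle in `H²(G_{ℚ,S}, K(1))` -/
def cls2 {z : GQ × GQ → K} (hz : IsGood2 p S z) : (globalLevels S).H2 (K1 p K) :=
  (globalLevels S).H2π (K1 p K) ⟨z, mem_Z2_of_isGood2 hz⟩

omit [Fact p.Prime] [Algebra (ZMod p) K] in
lemma isGood2_add {z z' : GQ × GQ → K} (hz : IsGood2 p S z) (hz' : IsGood2 p S z') :
    IsGood2 p S (z + z') := by
  refine ⟨fun σ τ υ a ha => ?_, hz.2.add hz'.2⟩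
  have h1 := hz.1 σ τ υ a ha
  have h2 := hz'.1 σ τ υ a ha
  simp only [Pi.add_apply]
  linear_combination h1 + h2

omit [Fact p.Prime] [Algebra (ZMod p) K] in
lemma isGood2_smul (c : K) {z : GQ × GQ → K} (hz : IsGood2 p S z) : IsGood2 p S (c • z) := by
  refine ⟨fun σ τ υ a ha => ?_, hz.2.comp (c • ·)⟩
  have h1 := hz.1 σ τ υ a ha
  simp only [Pi.smul_apply, smul_eq_mul]
  linear_combination c * h1

lemma cls2_add {z z' : GQ × GQ → K} (hz : IsGood2 p S z) (hz' : IsGood2 p S z') :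
    cls2 (isGood2_add hz hz') = cls2 hz + cls2 hz' := by
  unfold cls2
  rw [← map_add]
  rfl

lemma cls2_smul (c : K) {z : GQ × GQ → K} (hz : IsGood2 p S z) :
    cls2 (isGood2_smul c hz) =
      pushH2 (A := K1 p K) (B := K1 p K) (LinearMap.mulLeft (ZMod p) c)
        (twTriv_isEquivariant (cycloChar p) K (LinearMap.mulLeft (ZMod p) c))
        (globalLevels S) (cls2 hz) := by
  unfold cls2
  rw [pushH2_mk]
  congr 1

variable [FiniteDimensional (ZMod p) K]

/-- the extension of S55's `inv_v` to `H²(G_v, K(1))` -/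
def extInvLoc (inv : InvFamily p S) (v : ↥S) :
    (localLevels v.1).H2 (Rep.res (rl v.1) (K1 p K)) →ₗ[ZMod p] K :=
  extInv (W := K) (localLevels v.1) ((cycloChar p).comp (rl v.1)) (inv v)

/-- the invariant at `v` of a class in `H²(G_{ℚ,S}, K(1))` -/
def invH (inv : InvFamily p S) (v : ↥S) : (globalLevels S).H2 (K1 p K) →ₗ[ZMod p] K :=
  extInvLoc inv v ∘ₗ resH2 (hrl S v) (K1 p K)

/-- **Reciprocity** for classes with coefficients in `K(1)`. -/
theorem sum_invH_eq_zero {inv : InvFamily p S} (hrec : RecipSpec inv)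
    (x : (globalLevels S).H2 (K1 p K)) : ∑ v : ↥S, invH inv v x = 0 := by
  apply (Module.forall_dual_apply_eq_zero_iff (ZMod p) _).1
  intro f
  rw [map_sum]
  have h := hrec (pushDual (W := K) (globalLevels S) (cycloChar p) f x)
  rw [← h]
  refine Finset.sum_congr rfl fun v _ => ?_
  have h1 : f (invH inv v x) =
      inv v (pushDual (W := K) (localLevels v.1) ((cycloChar p).comp (rl v.1)) f
        (resH2 (hrl S v) (K1 p K) x)) :=
    dual_extInv (W := K) (localLevels v.1) ((cycloChar p).comp (rl v.1)) (inv v) _ f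
  rw [h1]
  congr 1
  obtain ⟨c, rfl⟩ := (globalLevels S).H2π_surjective _ x
  rfl

/-- `invH` commutes with multiplication by elements of `K`. -/
theorem invH_mulLeft (inv : InvFamily p S) (v : ↥S) (c : K)
    (x : (globalLevels S).H2 (K1 p K)) :
    invH inv v (pushH2 (A := K1 p K) (B := K1 p K) (LinearMap.mulLeft (ZMod p) c)
        (twTriv_isEquivariant (cycloChar p) K (LinearMap.mulLeft (ZMod p) c))
        (globalLevels S) x) = c * invH inv v x := by
  have h := extInv_pushH2_endo (W := K) (localLevels v.1) ((cycloChar p).comp (rl v.1)) (inv v)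
    (LinearMap.mulLeft (ZMod p) c) (resH2 (hrl S v) (K1 p K) x)
  rw [LinearMap.mulLeft_apply] at h
  show extInvLoc inv v (resH2 (hrl S v) (K1 p K) _) = c * extInvLoc inv v _
  refine Eq.trans ?_ h
  show extInvLoc inv v _ = extInvLoc inv v _
  congr 1
  obtain ⟨z, rfl⟩ := (globalLevels S).H2π_surjective _ x
  rfl

/-! ### Local coboundaries -/

omit [FiniteDimensional (ZMod p) K] in
/-- A good 2-cocycle which is a twisted coboundary on `D_v` has trivial class in
`H²(G_v, K(1))`. -/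
theorem resH2_cls2_eq_zero_of_coboundaryOn (v : ↥S) {z : GQ × GQ → K} (hz : IsGood2 p S z)
    (h : IsTw2CoboundaryOn p ((primeLocalPlace v.1).decompositionSubgroup ℚ) z) :
    resH2 (hrl S v) (K1 p K) (cls2 hz) = 0 := by
  obtain ⟨lam, ⟨F, hF, hlev⟩, hcob⟩ := h
  unfold cls2
  rw [resH2_mk, LevelSys.H2π_eq_zero_iff]
  have hmem : ∀ s : Gl v.1, rl v.1 s ∈ (primeLocalPlace v.1).decompositionSubgroup ℚ :=
    fun s => Fermat.Agent.S55.BLocal.primeLocalToGlobal_mem v.1 s
  refine ⟨fun s => lam (rl v.1 s), ?_, ?_⟩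
  · refine ⟨_, ⟨F, hF, rfl⟩, fun g s hs => ?_⟩
    show lam (rl v.1 (g * s)) = lam (rl v.1 g)
    rw [map_mul]
    exact hlev _ (hmem g) _ (hmem s) hs
  · funext ⟨g, h⟩
    obtain ⟨a, ha⟩ := exists_cycExp_invRec (p := p) (rl v.1 g)
    have h1 := hcob _ (hmem g) _ (hmem h) a ha
    have hd : (d₁₂ (Rep.res (rl v.1) (K1 p K))).hom (fun s => lam (rl v.1 s)) (g, h)
        = (Rep.res (rl v.1) (K1 p K)).ρ g (lam (rl v.1 h)) - lam (rl v.1 (g * h))
          + lam (rl v.1 g) := rfl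
    rw [hd, K1_ρ_rl_apply ha, map_mul]
    exact h1.symm

omit [FiniteDimensional (ZMod p) K] in
/-- A good 2-cocycle with trivial class in `H²(G_v, K(1))` is a twisted coboundary on `D_v`. -/
theorem coboundaryOn_of_resH2_cls2_eq_zero (v : ↥S) {z : GQ × GQ → K} (hz : IsGood2 p S z)
    (h : resH2 (hrl S v) (K1 p K) (cls2 hz) = 0) :
    IsTw2CoboundaryOn p ((primeLocalPlace v.1).decompositionSubgroup ℚ) z := by
  unfold cls2 at h
  rw [resH2_mk, LevelSys.H2π_eq_zero_iff] at h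
  obtain ⟨x, ⟨U, ⟨F, hF, rfl⟩, hxU⟩, hdx⟩ := h
  classical
  -- `x` factors through the image of `rl v`
  have hker : ∀ s s' : Gl v.1, rl v.1 s = rl v.1 s' → x s = x s' := by
    intro s s' hss
    have hmem : s⁻¹ * s' ∈ (F.fixingSubgroup).comap (rl v.1) := by
      rw [Subgroup.mem_comap, map_mul, map_inv, hss, inv_mul_cancel]
      exact Subgroup.one_mem _
    have := hxU s (s⁻¹ * s') hmem
    rw [mul_inv_cancel_left] at this
    exact this.symm
  let lam : GQ → K := fun σ => if hσ : ∃ s : Gl v.1, rl v.1 s = σ then x hσ.choose else 0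
  have hlam : ∀ s : Gl v.1, lam (rl v.1 s) = x s := by
    intro s
    have hσ : ∃ s' : Gl v.1, rl v.1 s' = rl v.1 s := ⟨s, rfl⟩
    show (if hσ : ∃ s' : Gl v.1, rl v.1 s' = rl v.1 s then x hσ.choose else 0) = x s
    rw [dif_pos hσ]
    exact hker _ _ hσ.choose_spec
  have hsurj : ∀ σ ∈ (primeLocalPlace v.1).decompositionSubgroup ℚ,
      ∃ s : Gl v.1, rl v.1 s = σ :=
    fun σ hσ => Fermat.Agent.S55.BLocal.exists_primeLocalToGlobal_eq v.1 σ hσ
  refine ⟨lam, ⟨F, hF, ?_⟩, ?_⟩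
  · intro σ hσ τ hτ hτF
    obtain ⟨s, rfl⟩ := hsurj σ hσ
    obtain ⟨t, rfl⟩ := hsurj τ hτ
    rw [← map_mul, hlam, hlam]
    exact hxU s t hτF
  · intro σ hσ τ hτ a ha
    obtain ⟨s, rfl⟩ := hsurj σ hσ
    obtain ⟨t, rfl⟩ := hsurj τ hτ
    have h1 := congrFun hdx (s, t)
    have hd : (d₁₂ (Rep.res (rl v.1) (K1 p K))).hom x (s, t)
        = (Rep.res (rl v.1) (K1 p K)).ρ s (x t) - x (s * t) + x s := rfl
    rw [hd, K1_ρ_rl_apply ha] at h1
    rw [← map_mul, hlam, hlam, hlam]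
    exact h1.symm

end Arith

/-! ### The statement -/

/-- **INVREC.** -/
theorem invRec : InvRecStatement := by
  intro p _ S K _ _ _ hInv
  let _ : Algebra (ZMod p) K := ZMod.algebra K p
  have : FiniteDimensional (ZMod p) K := Module.Finite.of_finite
  obtain ⟨inv, hrec, htop, -⟩ := hInv
  classical
  refine ⟨fun v z => if h : IsGood2 p S z then invH inv v (cls2 h) else 0, ?_, ?_, ?_, ?_, ?_⟩
  · intro v z z' hz hz'
    simp only [dif_pos hz, dif_pos hz', dif_pos (isGood2_add hz hz')]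
    rw [cls2_add hz hz', map_add]
  · intro v c z hz
    simp only [dif_pos hz, dif_pos (isGood2_smul c hz)]
    rw [cls2_smul c hz, invH_mulLeft]
  · intro v z hz hcob
    simp only [dif_pos hz]
    show extInvLoc inv v (resH2 (hrl S v) (K1 p K) (cls2 hz)) = 0
    rw [resH2_cls2_eq_zero_of_coboundaryOn v hz hcob, map_zero]
  · intro v z hz hvp hdvd h0
    simp only [dif_pos hz] at h0
    have hinj : Function.Injective (inv v) :=
      (inv_bijective_of_dvd_sub_one htop v hvp hdvd).1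
    have h1 : extInv (W := K) (localLevels v.1) ((cycloChar p).comp (rl v.1)) (inv v)
        (resH2 (hrl S v) (K1 p K) (cls2 hz)) = 0 := h0
    have h2 := (extInv_eq_zero_iff (W := K) (localLevels v.1) ((cycloChar p).comp (rl v.1))
      (inv := inv v) hinj (resH2 (hrl S v) (K1 p K) (cls2 hz))).1 h1
    exact coboundaryOn_of_resH2_cls2_eq_zero v hz h2
  · intro z hz
    simp only [dif_pos hz]
    exact sum_invH_eq_zero hrec (cls2 hz)

end Fermat.Agent.S56.H14

end
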