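import Fermat.Agent.S56.H14.CycExp

/-!
# S56 / TWP2 (helper14): local triviality does not depend on the valuation subring

For a global twisted cocycle `c` and a prime `q`: if `c` is a coboundary on the decomposition
group of ONE valuation subring over `q`, it is a coboundary on the decomposition group of EVERY
valuation subring over `q` (`m' = ε(g) Ad(g) m - c(g)` for `P' = g • P`).
-/

set_option autoImplicit false

open scoped Pointwise

namespace Fermat.Agent.S56.H14

open Fermat.Agent.S56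

variable {k : Type} [Field k] (ρbar : ResidualGaloisRep k)

theorem rho_mul_rho_inv (g : GQ) : ρbar.ρ g * ρbar.ρ g⁻¹ = 1 := by
  rw [← map_mul, mul_inv_cancel, map_one]

theorem rho_inv_mul_rho (g : GQ) : ρbar.ρ g⁻¹ * ρbar.ρ g = 1 := by
  rw [← map_mul, inv_mul_cancel, map_one]

theorem twAd_zero (σ : GQ) (a : ℕ) : twAd ρbar σ a 0 = 0 := by
  simp [twAd]

theorem twAd_add (σ : GQ) (a : ℕ) (m m' : Module.End k ρbar.V) :
    twAd ρbar σ a (m + m') = twAd ρbar σ a m + twAd ρbar σ a m' := by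
  simp [twAd, mul_add, add_mul]

theorem twAd_sub (σ : GQ) (a : ℕ) (m m' : Module.End k ρbar.V) :
    twAd ρbar σ a (m - m') = twAd ρbar σ a m - twAd ρbar σ a m' := by
  simp [twAd, mul_sub, sub_mul, smul_sub]

theorem twAd_smul (σ : GQ) (a : ℕ) (r : k) (m : Module.End k ρbar.V) :
    twAd ρbar σ a (r • m) = r • twAd ρbar σ a m := by
  simp only [twAd, mul_smul_comm, smul_mul_assoc]
  rw [smul_comm]

theorem twAd_twAd (σ τ : GQ) (a b : ℕ) (m : Module.End k ρbar.V) :
    twAd ρbar σ a (twAd ρbar τ b m) =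
      ((a : k) * (b : k)) • (ρbar.ρ (σ * τ) * m * ρbar.ρ (σ * τ)⁻¹) := by
  simp only [twAd, mul_smul_comm, smul_mul_assoc, mul_inv_rev, map_mul, mul_smul, mul_assoc]

theorem trace_twAd (σ : GQ) (a : ℕ) (m : Module.End k ρbar.V) :
    LinearMap.trace k ρbar.V (twAd ρbar σ a m) = (a : k) * LinearMap.trace k ρbar.V m := by
  rw [twAd, map_smul, smul_eq_mul, LinearMap.trace_mul_comm, ← mul_assoc, rho_inv_mul_rho,
    one_mul]

variable (p : ℕ)

/-- **TWP2, core.**  If the twisted cocycle `c` is the coboundary of `m` on the decomposition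
group of `P`, then it is the coboundary of `ε(g) Ad(g) m - c(g)` on the decomposition group of
`g • P`. -/
theorem isTwCoboundaryOn_smul {c : GQ → Module.End k ρbar.V} (hc : IsTwCocycle ρbar p c)
    (P : ValuationSubring Qb) (g : GQ) {b : ℕ} (hb : IsCycExp p g b) {m : Module.End k ρbar.V}
    (h : IsTwCoboundaryOn ρbar p (P.decompositionSubgroup ℚ) c m) :
    IsTwCoboundaryOn ρbar p ((g • P).decompositionSubgroup ℚ) c (twAd ρbar g b m - c g) := by
  refine ⟨?_, fun σ' hσ' a' ha' => ?_⟩
  · rw [map_sub, trace_twAd, h.1, mul_zero, hc.trace_eq_zero, sub_zero]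
  · -- `σ = g⁻¹ σ' g` lies in the decomposition group of `P`
    have hσ : g⁻¹ * σ' * g ∈ P.decompositionSubgroup ℚ := by
      have h1 := Fermat.Agent.Lib.Cheb.H476.conj_mem_decomposition g⁻¹ hσ'
      rw [inv_smul_smul, inv_inv] at h1
      exact h1
    have ha : IsCycExp p (g⁻¹ * σ' * g) a' := by
      have h1 := isCycExp_conj ha' g⁻¹
      rw [inv_inv] at h1
      exact h1
    have hcσ := h.2 _ hσ a' ha
    have e1 : g * (g⁻¹ * σ' * g) = σ' * g := by group
    have h2 := hc.map_mul g (g⁻¹ * σ' * g) b hb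
    have h3 := hc.map_mul σ' g a' ha'
    rw [e1] at h2
    rw [h2, hcσ, twAd_sub, twAd_twAd, e1] at h3
    rw [twAd_sub, twAd_twAd, mul_comm (a' : k) (b : k)]
    -- `h3 : c g + (X - twAd g b m) = c σ' + twAd σ' a' (c g)`
    have h4 : c σ' = c g + (((b : k) * (a' : k)) • (ρbar.ρ (σ' * g) * m * ρbar.ρ (σ' * g)⁻¹)
        - twAd ρbar g b m) - twAd ρbar σ' a' (c g) := by
      rw [h3]; abel
    rw [h4]; abel

/-- **TWP2.**  For a twisted cocycle, local triviality at a prime `q` can be tested on the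
decomposition group of any given valuation subring over `q`. -/
theorem exists_isTwCoboundaryOn_of_locTrivAt (hp : 0 < p) {c : GQ → Module.End k ρbar.V}
    (hc : IsTwCocycle ρbar p c) {q : ℕ} (hq : q.Prime) (h : LocTrivAt ρbar p q c)
    (A : ValuationSubring Qb) (hA : A.LiesOverPrime q) :
    ∃ m, IsTwCoboundaryOn ρbar p (A.decompositionSubgroup ℚ) c m := by
  obtain ⟨P, hP, m, hm⟩ := h
  obtain ⟨g, hg⟩ := Fermat.Agent.Lib.Cheb.H476.exists_smul_eq hq hP hA
  obtain ⟨b, hb⟩ := exists_isCycExp p hp g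
  have := isTwCoboundaryOn_smul ρbar p hc P g hb hm
  rw [hg] at this
  exact ⟨_, this⟩

end Fermat.Agent.S56.H14
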