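import Fermat.Agent.S55.PT.Cone

/-!
# Row S56 — leaf CUP: the cup product `H¹ × H¹ → H²` on level-constant cohomology (helper14)

Vocabulary of the S55 duality engine (`Fermat/Agent/S55/PT/*`): a group `G` with a level system
`L`, representations `A B C : Rep k G` and an equivariant pairing `β : A × B → C`.

* `cupFun β x y (g, h) = β (x g) (g • y h)` — the cochain-level cup product;
* `cupFun_mem_Z2`, `cupFun_mem_B2_left`, `cupFun_mem_B2_right` — cocycle × cocycle is a cocycle,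
  coboundary × cocycle and cocycle × coboundary are coboundaries of LEVEL-CONSTANT cochains;
* `cupH hN β hβ : H¹(A) → H¹(B) → H²(C)` — the induced bilinear map (`hN : L.NormalCofinal`);
* `resH2_cupH` — compatibility with restriction along a level-compatible homomorphism;
* `pushH2_cupH` — compatibility with push-forward of the coefficient pairing;
* `sumPair`, `sumPair_loc1` (**W-REC from RECIP**) — given "invariant maps"
  `inv v : H²(G_v, C) → k` with `Σ_v inv_v (res_v z) = 0` for all `z ∈ H²(G, C)`, the pairing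
  `⟨(x_v), (y_v)⟩ = Σ_v inv_v (x_v ∪ y_v)` on `∏_v H¹(G_v, A) × ∏_v H¹(G_v, B)` vanishes on
  `loc1 x`, `loc1 y` (the shape of `hrec` in `S56/H831/GWAbstract.lean`).

Nothing unproved in this file; Mathlib + `S55/PT` only.
-/

set_option autoImplicit false

noncomputable section

namespace Fermat.Agent.S56.H14

open groupCohomology Fermat.Agent.S55.PT

variable {k : Type} [Field k] {G : Type} [Group G]

/-- `β : A × B → C` is an equivariant pairing. -/
def IsEquivPairing {A B C : Rep.{0, 0, 0} k G} (β : A →ₗ[k] B →ₗ[k] C) : Prop :=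
  ∀ (g : G) (a : A) (b : B), β (A.ρ g a) (B.ρ g b) = C.ρ g (β a b)

section CupFun

variable {A B C : Rep.{0, 0, 0} k G} (β : A →ₗ[k] B →ₗ[k] C)

/-- The cochain-level cup product `(x ∪ y)(g, h) = β (x g) (g • y h)`. -/
def cupFun (x : G → A) (y : G → B) : G × G → C :=
  fun gh => β (x gh.1) (B.ρ gh.1 (y gh.2))

@[simp] lemma cupFun_apply (x : G → A) (y : G → B) (g h : G) :
    cupFun β x y (g, h) = β (x g) (B.ρ g (y h)) := rfl

lemma cupFun_add_left (x x' : G → A) (y : G → B) :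
    cupFun β (x + x') y = cupFun β x y + cupFun β x' y := by
  funext ⟨g, h⟩
  simp only [cupFun_apply, Pi.add_apply, map_add, LinearMap.add_apply]

lemma cupFun_add_right (x : G → A) (y y' : G → B) :
    cupFun β x (y + y') = cupFun β x y + cupFun β x y' := by
  funext ⟨g, h⟩
  simp only [cupFun_apply, Pi.add_apply, map_add]

lemma cupFun_smul_left (c : k) (x : G → A) (y : G → B) :
    cupFun β (c • x) y = c • cupFun β x y := by
  funext ⟨g, h⟩
  simp only [cupFun_apply, Pi.smul_apply, map_smul, LinearMap.smul_apply]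

lemma cupFun_smul_right (c : k) (x : G → A) (y : G → B) :
    cupFun β x (c • y) = c • cupFun β x y := by
  funext ⟨g, h⟩
  simp only [cupFun_apply, Pi.smul_apply, map_smul]

end CupFun

section Cocycle

variable {A B C : Rep.{0, 0, 0} k G} (β : A →ₗ[k] B →ₗ[k] C) (hβ : IsEquivPairing β)

include hβ in
/-- cocycle ∪ cocycle is a 2-cocycle. -/
lemma cupFun_mem_cocycles₂ {x : G → A} {y : G → B} (hx : x ∈ cocycles₁ A)
    (hy : y ∈ cocycles₁ B) : cupFun β x y ∈ cocycles₂ C := by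
  rw [mem_cocycles₂_iff]
  rw [mem_cocycles₁_iff] at hx hy
  intro g h j
  simp only [cupFun_apply]
  rw [hx g h, hy h j, ← hβ g (x h) (B.ρ h (y j))]
  simp only [map_add, LinearMap.add_apply, map_mul, Module.End.mul_apply]
  abel

/-- a cocycle vanishes at `1`. -/
lemma cup_cocycle_one {y : G → B} (hy : y ∈ cocycles₁ B) : y 1 = 0 :=
  cocycles₁_map_one (⟨y, hy⟩ : cocycles₁ B)

/-- The values of a cocycle which is constant modulo a NORMAL subgroup `U` are fixed by `U`. -/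
lemma cup_cocycle_fixed {y : G → B} (hy : y ∈ cocycles₁ B) {U : Subgroup G} (hU : U.Normal)
    (hyU : ∀ g s : G, s ∈ U → y (g * s) = y g) (s : G) (hs : s ∈ U) (h : G) :
    B.ρ s (y h) = y h := by
  have h1 : y (s * h) = B.ρ s (y h) + y s := (mem_cocycles₁_iff y).1 hy s h
  have h2 : y s = 0 := by
    have := hyU 1 s hs
    rw [one_mul] at this
    rw [this, cup_cocycle_one hy]
  have h3 : y (s * h) = y h := by
    have hc : h⁻¹ * s * h ∈ U := by
      have := hU.conj_mem s hs h⁻¹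
      simpa using this
    have := hyU h (h⁻¹ * s * h) hc
    rwa [show h * (h⁻¹ * s * h) = s * h by group] at this
  rw [h2, add_zero] at h1
  rw [← h1, h3]

/-- cocycle ∪ cocycle is level-constant (normal levels cofinal). -/
lemma cupFun_isLC₂ {L : LevelSys G} (hN : L.NormalCofinal) {x : G → A} {y : G → B}
    (hx : L.IsLC₁ x) (hy : y ∈ L.Z1 B) : L.IsLC₂ (cupFun β x y) := by
  obtain ⟨U, hU, hxU⟩ := hx
  obtain ⟨V, hV, hyV⟩ := hy.2
  obtain ⟨V', hV', hle', hVn⟩ := hN V hV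
  obtain ⟨W, hW, hle⟩ := L.directed U hU V' hV'
  refine ⟨W, hW, fun g h s s' hs hs' => ?_⟩
  have hyV' : ∀ g s : G, s ∈ V' → y (g * s) = y g := fun g s hs => hyV g s (hle' hs)
  simp only [cupFun_apply]
  rw [hxU g s (hle hs).1, hyV' h s' (hle hs').2, map_mul, Module.End.mul_apply,
    cup_cocycle_fixed hy.1 hVn hyV' s (hle hs).2 h]

include hβ in
/-- cocycle ∪ cocycle is a level-constant 2-cocycle. -/
lemma cupFun_mem_Z2 {L : LevelSys G} (hN : L.NormalCofinal) {x : G → A} {y : G → B}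
    (hx : x ∈ L.Z1 A) (hy : y ∈ L.Z1 B) : cupFun β x y ∈ L.Z2 C :=
  ⟨cupFun_mem_cocycles₂ β hβ hx.1 hy.1, cupFun_isLC₂ β hN hx.2 hy⟩

include hβ in
/-- coboundary ∪ cocycle `= d (g ↦ β a (y g))`. -/
lemma cupFun_d₀₁_left (a : A) {y : G → B} (hy : y ∈ cocycles₁ B) :
    cupFun β ((d₀₁ A).hom a) y = (d₁₂ C).hom (fun g => β a (y g)) := by
  rw [mem_cocycles₁_iff] at hy
  funext ⟨g, h⟩
  simp only [cupFun_apply, d₀₁_hom_apply, d₁₂_hom_apply]
  rw [hy g h, ← hβ g a (y h)]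
  simp only [map_add, map_sub, LinearMap.sub_apply]
  abel

include hβ in
/-- cocycle ∪ coboundary `= d (g ↦ - β (x g) (g • b))`. -/
lemma cupFun_d₀₁_right {x : G → A} (hx : x ∈ cocycles₁ A) (b : B) :
    cupFun β x ((d₀₁ B).hom b) = (d₁₂ C).hom (fun g => - β (x g) (B.ρ g b)) := by
  rw [mem_cocycles₁_iff] at hx
  funext ⟨g, h⟩
  simp only [cupFun_apply, d₀₁_hom_apply, d₁₂_hom_apply]
  rw [hx g h, map_neg, ← hβ g (x h) (B.ρ h b)]
  simp only [map_add, map_sub, LinearMap.add_apply, map_mul, Module.End.mul_apply]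
  abel

include hβ in
/-- coboundary ∪ (level-constant cocycle) is the coboundary of a level-constant cochain. -/
lemma cupFun_mem_B2_left {L : LevelSys G} {x : G → A} {y : G → B}
    (hx : x ∈ LevelSys.B1 A) (hy : y ∈ L.Z1 B) : cupFun β x y ∈ L.B2 C := by
  obtain ⟨a, rfl⟩ := hx
  refine ⟨fun g => β a (y g), ?_, (cupFun_d₀₁_left β hβ a hy.1).symm⟩
  exact LevelSys.IsLC₁.comp hy.2 (β a)

include hβ in
/-- (level-constant cocycle) ∪ (level-constant coboundary) is the coboundary of a level-constant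
cochain. -/
lemma cupFun_mem_B2_right {L : LevelSys G} {x : G → A} {y : G → B}
    (hx : x ∈ L.Z1 A) (hy : y ∈ LevelSys.B1 B) (hy' : L.IsLC₁ y) : cupFun β x y ∈ L.B2 C := by
  obtain ⟨b, rfl⟩ := hy
  refine ⟨fun g => - β (x g) (B.ρ g b), ?_, (cupFun_d₀₁_right β hβ hx.1 b).symm⟩
  obtain ⟨U, hU, hxU⟩ := hx.2
  obtain ⟨V, hV, hyV⟩ := hy'
  obtain ⟨W, hW, hle⟩ := L.directed U hU V hV
  refine ⟨W, hW, fun g s hs => ?_⟩
  have hb : B.ρ s b = b := by
    have h1 := hyV 1 s (hle hs).2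
    simp only [d₀₁_hom_apply, one_mul, map_one, Module.End.one_apply, sub_self] at h1
    exact sub_eq_zero.1 h1
  simp only
  rw [hxU g s (hle hs).1, map_mul, Module.End.mul_apply, hb]

end Cocycle

section CupH

variable {A B C : Rep.{0, 0, 0} k G} {L : LevelSys G} (hN : L.NormalCofinal)
  (β : A →ₗ[k] B →ₗ[k] C) (hβ : IsEquivPairing β)

/-- The cup product on level-constant cocycles, as a bilinear map. -/
def cupZ : ↥(L.Z1 A) →ₗ[k] ↥(L.Z1 B) →ₗ[k] ↥(L.Z2 C) :=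
  LinearMap.mk₂ k (fun x y => ⟨cupFun β (x : G → A) (y : G → B), cupFun_mem_Z2 β hβ hN x.2 y.2⟩)
    (fun _ _ _ => Subtype.ext (cupFun_add_left β _ _ _))
    (fun c _ _ => Subtype.ext (cupFun_smul_left β c _ _))
    (fun _ _ _ => Subtype.ext (cupFun_add_right β _ _ _))
    (fun c _ _ => Subtype.ext (cupFun_smul_right β c _ _))

@[simp] lemma coe_cupZ (x : ↥(L.Z1 A)) (y : ↥(L.Z1 B)) :
    (cupZ hN β hβ x y : G × G → C) = cupFun β (x : G → A) (y : G → B) := rfl

/-- auxiliary: the cup product `Z¹(B) → Z¹(A) → H²(C)` (variables flipped). -/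
def cupZH' : ↥(L.Z1 B) →ₗ[k] ↥(L.Z1 A) →ₗ[k] L.H2 C :=
  ((cupZ hN β hβ).compr₂ (L.H2π C)).flip

lemma cupZH'_apply (y : ↥(L.Z1 B)) (x : ↥(L.Z1 A)) :
    cupZH' hN β hβ y x = L.H2π C (cupZ hN β hβ x y) := rfl

lemma cupZH'_eq_zero_right (y : ↥(L.Z1 B)) (hy : (y : G → B) ∈ LevelSys.B1 B) :
    cupZH' hN β hβ y = 0 := by
  apply LinearMap.ext
  intro x
  rw [cupZH'_apply, LinearMap.zero_apply, LevelSys.H2π_eq_zero_iff]
  exact cupFun_mem_B2_right β hβ x.2 hy y.2.2

lemma cupZH'_eq_zero_left (y : ↥(L.Z1 B)) (x : ↥(L.Z1 A)) (hx : (x : G → A) ∈ LevelSys.B1 A) :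
    cupZH' hN β hβ y x = 0 := by
  rw [cupZH'_apply, LevelSys.H2π_eq_zero_iff]
  exact cupFun_mem_B2_left β hβ hx y.2

/-- auxiliary: the cup product `Z¹(A) → H¹(B) → H²(C)`. -/
def cupZH : ↥(L.Z1 A) →ₗ[k] L.H1 B →ₗ[k] L.H2 C :=
  (Submodule.liftQ ((LevelSys.B1 B).comap (L.Z1 B).subtype) (cupZH' hN β hβ) (by
    intro y hy
    rw [LinearMap.mem_ker]
    exact cupZH'_eq_zero_right hN β hβ y (by simpa using hy))).flip

lemma cupZH_mk (x : ↥(L.Z1 A)) (y : ↥(L.Z1 B)) :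
    cupZH hN β hβ x (L.H1π B y) = L.H2π C (cupZ hN β hβ x y) := rfl

/-- **The cup product** `H¹(A) × H¹(B) → H²(C)` on level-constant cohomology. -/
def cupH : L.H1 A →ₗ[k] L.H1 B →ₗ[k] L.H2 C :=
  Submodule.liftQ ((LevelSys.B1 A).comap (L.Z1 A).subtype) (cupZH hN β hβ) (by
    intro x hx
    rw [LinearMap.mem_ker]
    apply LinearMap.ext
    intro ybar
    obtain ⟨y, rfl⟩ := L.H1π_surjective B ybar
    rw [cupZH_mk, LinearMap.zero_apply]
    exact cupZH'_eq_zero_left hN β hβ y x (by simpa using hx))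

@[simp] lemma cupH_mk (x : ↥(L.Z1 A)) (y : ↥(L.Z1 B)) :
    cupH hN β hβ (L.H1π A x) (L.H1π B y) = L.H2π C (cupZ hN β hβ x y) := rfl

end CupH

section Naturality

variable {A B C : Rep.{0, 0, 0} k G} {L : LevelSys G} (hN : L.NormalCofinal)
  (β : A →ₗ[k] B →ₗ[k] C) (hβ : IsEquivPairing β)

/-- An equivariant pairing restricts to an equivariant pairing. -/
lemma IsEquivPairing.res {A B C : Rep.{0, 0, 0} k G} {β : A →ₗ[k] B →ₗ[k] C}
    (hβ : IsEquivPairing β) {G' : Type} [Group G'] (r : G' →* G) :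
    IsEquivPairing (A := Rep.res r A) (B := Rep.res r B) (C := Rep.res r C) β :=
  fun g a b => hβ (r g) a b

variable {G' : Type} [Group G'] {r : G' →* G} {L' : LevelSys G'}
  (hr : IsLevelCompatible r L L') (hN' : L'.NormalCofinal)

/-- The cup product commutes with restriction. -/
theorem resH2_cupH (x : L.H1 A) (y : L.H1 B) :
    resH2 hr C (cupH hN β hβ x y) =
      cupH (A := Rep.res r A) (B := Rep.res r B) (C := Rep.res r C) hN' β (hβ.res r)
        (resH1 hr A x) (resH1 hr B y) := by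
  obtain ⟨x, rfl⟩ := L.H1π_surjective A x
  obtain ⟨y, rfl⟩ := L.H1π_surjective B y
  rfl

variable {A₁ B₁ C₁ : Rep.{0, 0, 0} k G} (β₁ : A₁ →ₗ[k] B₁ →ₗ[k] C₁) (hβ₁ : IsEquivPairing β₁)

/-- The cup product is natural in the coefficients. -/
theorem pushH2_cupH (f : A →ₗ[k] A₁) (hf : IsEquivariant f) (g : B →ₗ[k] B₁)
    (hg : IsEquivariant g) (h : C →ₗ[k] C₁) (hh : IsEquivariant h)
    (hcomp : ∀ a b, β₁ (f a) (g b) = h (β a b)) (x : L.H1 A) (y : L.H1 B) :
    pushH2 h hh L (cupH hN β hβ x y) =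
      cupH hN β₁ hβ₁ (pushH1 f hf L x) (pushH1 g hg L y) := by
  obtain ⟨x, rfl⟩ := L.H1π_surjective A x
  obtain ⟨y, rfl⟩ := L.H1π_surjective B y
  rw [cupH_mk, pushH2_mk, pushH1_mk, pushH1_mk, cupH_mk]
  congr 1
  apply Subtype.ext
  funext ⟨a, b⟩
  have hg' : ∀ (s : G) (b : B), g (B.ρ s b) = B₁.ρ s (g b) := hg
  simp only [coe_pushZ2, coe_cupZ, Function.comp_apply, cupFun_apply, coe_pushZ1]
  rw [← hg', hcomp]

/-- Adjointness: if `β₁ (f a) b₁ = β a (g b₁)` then `f_* x ∪ y₁ = x ∪ g_* y₁`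
(e.g. `f`, `g` multiplication by a scalar of a bigger coefficient field). -/
theorem cupH_pushH1_adjoint {B₂ : Rep.{0, 0, 0} k G} (β₂ : A₁ →ₗ[k] B₂ →ₗ[k] C)
    (hβ₂ : IsEquivPairing β₂) (f : A →ₗ[k] A₁) (hf : IsEquivariant f) (g : B₂ →ₗ[k] B)
    (hg : IsEquivariant g) (hadj : ∀ a b, β₂ (f a) b = β a (g b)) (x : L.H1 A) (y : L.H1 B₂) :
    cupH hN β₂ hβ₂ (pushH1 f hf L x) y = cupH hN β hβ x (pushH1 g hg L y) := by
  obtain ⟨x, rfl⟩ := L.H1π_surjective A x
  obtain ⟨y, rfl⟩ := L.H1π_surjective B₂ y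
  rw [pushH1_mk, pushH1_mk, cupH_mk, cupH_mk]
  congr 1
  apply Subtype.ext
  funext ⟨a, b⟩
  have hg' : ∀ (s : G) (b : B₂), g (B₂.ρ s b) = B.ρ s (g b) := hg
  simp only [coe_cupZ, cupFun_apply, coe_pushZ1, Function.comp_apply]
  rw [hadj, hg']

end Naturality

section Reciprocity

variable {A B C : Rep.{0, 0, 0} k G}
variable {ι : Type} [Fintype ι] {Gv : ι → Type} [∀ v, Group (Gv v)]
variable {L : LevelSys G} {Lv : ∀ v, LevelSys (Gv v)} {r : ∀ v, Gv v →* G}
variable (hr : ∀ v, IsLevelCompatible (r v) L (Lv v))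
variable (hNv : ∀ v, (Lv v).NormalCofinal)
variable (β : A →ₗ[k] B →ₗ[k] C) (hβ : IsEquivPairing β)
variable (inv : ∀ v, (Lv v).H2 (Rep.res (r v) C) →ₗ[k] k)

/-- The local pairing `⟨x, y⟩_v = inv_v (x ∪ y)` on `H¹(G_v, A) × H¹(G_v, B)`. -/
def locPair (v : ι) :
    (Lv v).H1 (Rep.res (r v) A) →ₗ[k] (Lv v).H1 (Rep.res (r v) B) →ₗ[k] k :=
  (cupH (A := Rep.res (r v) A) (B := Rep.res (r v) B) (C := Rep.res (r v) C) (hNv v) β
    (hβ.res (r v))).compr₂ (inv v)

omit [Fintype ι] in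
lemma locPair_apply (v : ι) (x : (Lv v).H1 (Rep.res (r v) A))
    (y : (Lv v).H1 (Rep.res (r v) B)) :
    locPair hNv β hβ inv v x y =
      inv v (cupH (A := Rep.res (r v) A) (B := Rep.res (r v) B) (C := Rep.res (r v) C) (hNv v) β
        (hβ.res (r v)) x y) := rfl

/-- The sum of the local pairings, on `∏_v H¹(G_v, A) × ∏_v H¹(G_v, B)`. -/
def sumPair : ((v : ι) → (Lv v).H1 (Rep.res (r v) A)) →ₗ[k]
    ((v : ι) → (Lv v).H1 (Rep.res (r v) B)) →ₗ[k] k :=
  ∑ v : ι, (locPair hNv β hβ inv v).compl₁₂ (LinearMap.proj v) (LinearMap.proj v)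

lemma sumPair_apply (x : (v : ι) → (Lv v).H1 (Rep.res (r v) A))
    (y : (v : ι) → (Lv v).H1 (Rep.res (r v) B)) :
    sumPair hNv β hβ inv x y = ∑ v : ι, locPair hNv β hβ inv v (x v) (y v) := by
  simp only [sumPair, LinearMap.sum_apply, LinearMap.compl₁₂_apply, LinearMap.proj_apply]

/-- **W-REC from RECIP.**  If `Σ_v inv_v (res_v z) = 0` for every `z ∈ H²(G, C)`, then the sum of
the local pairings vanishes on global classes: `Σ_v inv_v (res_v x ∪ res_v y) = 0`. -/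
theorem sum_locPair_res (hN : L.NormalCofinal) (hrec : ∀ z : L.H2 C, ∑ v : ι, inv v (resH2 (hr v) C z) = 0)
    (x : L.H1 A) (y : L.H1 B) :
    ∑ v : ι, locPair hNv β hβ inv v (resH1 (hr v) A x) (resH1 (hr v) B y) = 0 := by
  rw [← hrec (cupH hN β hβ x y)]
  refine Finset.sum_congr rfl fun v _ => ?_
  rw [locPair_apply, resH2_cupH hN β hβ (hr v) (hNv v)]

/-- **W-REC from RECIP**, in the shape of `hrec` of `S56/H831/GWAbstract.lean`:
`sumPair (loc1 x) (loc1 y) = 0`. -/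
theorem sumPair_loc1 [DecidableEq ι] (hN : L.NormalCofinal)
    (hrec : ∀ z : L.H2 C, ∑ v : ι, inv v (resH2 (hr v) C z) = 0)
    (x : L.H1 A) (y : L.H1 B) :
    sumPair hNv β hβ inv (loc1 hr A x) (loc1 hr B y) = 0 := by
  rw [sumPair_apply]
  exact sum_locPair_res hr hNv β hβ inv hN hrec x y

end Reciprocity

end Fermat.Agent.S56.H14

end
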