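import Fermat.Agent.S56.H14.Cup
import Fermat.Agent.S55.PT.Spec
import Fermat.Agent.S55.PT.LevelsH723

/-!
# Row S56 — leaf W-REC from S55's RECIP (helper14)

The arithmetic instance of `Fermat/Agent/S56/H14/Cup.lean`: `k = ZMod p`, `G = G_ℚ` with
`globalLevels S`, local groups `Gl v` (`v ∈ S`) with `localLevels v`, coefficients `C = μ_p`.

For `inv : PT.InvFamily p S` and an equivariant pairing `β : A × B → μ_p` of `F_p[G_ℚ]`-modules:

* `arithLocPair inv β hβ v : H¹(G_v, A) → H¹(G_v, B) → F_p`, `⟨x, y⟩_v = inv_v (x ∪ y)`;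
* `arithSumPair inv β hβ : ∏_v H¹(G_v, A) → ∏_v H¹(G_v, B) → F_p`;
* `arithSumPair_loc1 : PT.RecipSpec inv → arithSumPair (loc1 x) (loc1 y) = 0` (**W-REC**).

Nothing unproved in this file.
-/

set_option autoImplicit false

noncomputable section

namespace Fermat.Agent.S56.H14

open groupCohomology Fermat.Agent.S55.PT

variable {p : ℕ} [Fact p.Prime] {S : Finset Nat.Primes}
variable {A B : Rep.{0, 0, 0} (ZMod p) GQ}

/-- The local pairing `⟨x, y⟩_v = inv_v (x ∪ y)` at `v ∈ S`. -/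
def arithLocPair (inv : InvFamily p S) (β : A →ₗ[ZMod p] B →ₗ[ZMod p] mu p)
    (hβ : IsEquivPairing β) (v : ↥S) :
    (localLevels v.1).H1 (Rep.res (rl v.1) A) →ₗ[ZMod p]
      (localLevels v.1).H1 (Rep.res (rl v.1) B) →ₗ[ZMod p] ZMod p :=
  locPair (C := mu p) (Lv := fun v : ↥S => localLevels v.1) (r := fun v : ↥S => rl v.1)
    (fun v => H723.pullbackLevels_normalCofinal (rl v.1)) β hβ inv v

/-- The sum over `v ∈ S` of the local pairings. -/
def arithSumPair (inv : InvFamily p S) (β : A →ₗ[ZMod p] B →ₗ[ZMod p] mu p)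
    (hβ : IsEquivPairing β) :
    ((v : ↥S) → (localLevels v.1).H1 (Rep.res (rl v.1) A)) →ₗ[ZMod p]
      ((v : ↥S) → (localLevels v.1).H1 (Rep.res (rl v.1) B)) →ₗ[ZMod p] ZMod p :=
  sumPair (C := mu p) (Lv := fun v : ↥S => localLevels v.1) (r := fun v : ↥S => rl v.1)
    (fun v => H723.pullbackLevels_normalCofinal (rl v.1)) β hβ inv

lemma arithSumPair_apply (inv : InvFamily p S) (β : A →ₗ[ZMod p] B →ₗ[ZMod p] mu p)
    (hβ : IsEquivPairing β) (x : (v : ↥S) → (localLevels v.1).H1 (Rep.res (rl v.1) A))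
    (y : (v : ↥S) → (localLevels v.1).H1 (Rep.res (rl v.1) B)) :
    arithSumPair inv β hβ x y = ∑ v : ↥S, arithLocPair inv β hβ v (x v) (y v) :=
  sumPair_apply _ β hβ inv x y

/-- **W-REC**: global reciprocity for the cup-product pairing, from S55's `RecipSpec`. -/
theorem arithSumPair_loc1 {inv : InvFamily p S} (hrec : RecipSpec inv)
    (β : A →ₗ[ZMod p] B →ₗ[ZMod p] mu p) (hβ : IsEquivPairing β)
    (x : (globalLevels S).H1 A) (y : (globalLevels S).H1 B) :
    arithSumPair inv β hβ (loc1 (hrl S) A x) (loc1 (hrl S) B y) = 0 :=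
  sumPair_loc1 (C := mu p) (hrl S) _ β hβ inv (H723.globalLevels_normalCofinal S) hrec x y

/-- **W-REC**, unfolded: `Σ_{v ∈ S} inv_v (res_v x ∪ res_v y) = 0`. -/
theorem sum_arithLocPair_res {inv : InvFamily p S} (hrec : RecipSpec inv)
    (β : A →ₗ[ZMod p] B →ₗ[ZMod p] mu p) (hβ : IsEquivPairing β)
    (x : (globalLevels S).H1 A) (y : (globalLevels S).H1 B) :
    ∑ v : ↥S, arithLocPair inv β hβ v (resH1 (hrl S v) A x) (resH1 (hrl S v) B y) = 0 :=
  sum_locPair_res (C := mu p) (hrl S) _ β hβ inv (H723.globalLevels_normalCofinal S) hrec x y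

end Fermat.Agent.S56.H14

end
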