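import Fermat.Agent.S56.Spec
import Fermat.Agent.Lib.Cheb.H476.FrobConj
import Fermat.Agent.S55.Bridge.Cyclo

/-!
# S56 / TWP (helper14): cyclotomic exponents and Frobenius elements on roots of unity

* `exists_isCycExp` : every `σ ∈ G_ℚ` has a cyclotomic exponent on `μ_p`.
* `isCycExp_conj` : cyclotomic exponents are invariant under conjugation.
* `isCycExp_one_of_fixes` : if `σ` fixes `μ_{p^(n+1)}` then `1` is a cyclotomic exponent.
* `pow_dvd_sub_one_of_isFrobeniusAt` (TWP1): a Frobenius element at a valuation subring over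
  `ℓ ≠ p` which fixes the `p^m`-th roots of unity forces `p^m ∣ ℓ - 1`.
-/

set_option autoImplicit false

namespace Fermat.Agent.S56.H14

open Fermat.Agent.S56

/-- Every automorphism has a cyclotomic exponent on the `p`-th roots of unity. -/
theorem exists_isCycExp (p : ℕ) (hp : 0 < p) (σ : GQ) : ∃ a : ℕ, IsCycExp p σ a := by
  have : NeZero p := ⟨hp.ne'⟩
  obtain ⟨ζ, hζ⟩ := HasEnoughRootsOfUnity.exists_primitiveRoot Qb p
  have h1 : (σ ζ) ^ p = 1 := by rw [← map_pow, hζ.pow_eq_one, map_one]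
  obtain ⟨a, -, ha⟩ := hζ.eq_pow_of_pow_eq_one h1
  refine ⟨a, fun μ hμ => ?_⟩
  obtain ⟨i, -, rfl⟩ := hζ.eq_pow_of_pow_eq_one hμ
  rw [map_pow, ← ha, ← pow_mul, ← pow_mul, mul_comm]

/-- Cyclotomic exponents are invariant under conjugation. -/
theorem isCycExp_conj {p : ℕ} {σ : GQ} {a : ℕ} (h : IsCycExp p σ a) (g : GQ) :
    IsCycExp p (g * σ * g⁻¹) a := by
  intro μ hμ
  have h1 : (g⁻¹ μ) ^ p = 1 := by rw [← map_pow, hμ, map_one]
  have h2 : (g * σ * g⁻¹) μ = g (σ (g⁻¹ μ)) := rfl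
  rw [h2, h _ h1, map_pow]
  congr 1
  exact Fermat.Agent.Lib.Cheb.H476.apply_inv_apply g μ

/-- If `σ` fixes the `p`-th roots of unity then `1` is a cyclotomic exponent of `σ`. -/
theorem isCycExp_one_of_fixes {p : ℕ} {σ : GQ} (h : ∀ μ : Qb, μ ^ p = 1 → σ μ = μ) :
    IsCycExp p σ 1 := by
  intro μ hμ
  rw [pow_one]
  exact h μ hμ

/-- If `σ` fixes the `p^(n+1)`-th roots of unity, it fixes the `p`-th roots of unity. -/
theorem fixes_of_fixes_pow {p n : ℕ} {σ : GQ}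
    (h : ∀ μ : Qb, μ ^ p ^ (n + 1) = 1 → σ μ = μ) (μ : Qb) (hμ : μ ^ p = 1) : σ μ = μ := by
  apply h
  rw [pow_succ', pow_mul, hμ, one_pow]

/-- **TWP1.** A Frobenius element at a valuation subring over a prime `ℓ ≠ p` which fixes the
`N`-th roots of unity, `N = p ^ m`, forces `N ∣ ℓ - 1`. -/
theorem pow_dvd_sub_one_of_isFrobeniusAt {p ℓ m : ℕ} (hp : p.Prime) (hℓ : ℓ.Prime) (hne : ℓ ≠ p)
    {A : ValuationSubring Qb} (hA : A.LiesOverPrime ℓ) {τ : GQ} (hτ : A.IsFrobeniusAt τ ℓ)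
    (hfix : ∀ μ : Qb, μ ^ p ^ m = 1 → τ μ = μ) : p ^ m ∣ ℓ - 1 := by
  have hN : NeZero (p ^ m) := ⟨pow_ne_zero _ hp.ne_zero⟩
  obtain ⟨ζ, hζ⟩ := HasEnoughRootsOfUnity.exists_primitiveRoot Qb (p ^ m)
  have hpv : A.valuation ((p : ℕ) : Qb) = 1 :=
    Fermat.Agent.S55.Bridge.val_prime_eq_one (A := A) hA hℓ hp hne
  have hNv : A.valuation (((p ^ m : ℕ)) : Qb) = 1 := by
    rw [Nat.cast_pow, map_pow, hpv, one_pow]
  have hζA : ζ ∈ A := by
    rw [← A.valuation_le_one_iff]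
    have h : (A.valuation ζ) ^ (p ^ m) = 1 := by rw [← map_pow, hζ.pow_eq_one, map_one]
    exact ((pow_eq_one_iff.1 h).resolve_right hN.ne).le
  have h1 := ((Fermat.Agent.Lib.Cheb.H476.isFrobeniusAt_iff A τ ℓ).mp hτ).2 ζ hζA
  rw [hfix ζ hζ.pow_eq_one] at h1
  have h2 : ζ = ζ ^ ℓ := by
    by_contra hcon
    have h3 := Fermat.Agent.S55.Bridge.val_sub_roots_eq_one (A := A) hN.ne hNv
      hζ.pow_eq_one (by rw [← pow_mul, mul_comm, pow_mul, hζ.pow_eq_one, one_pow]) hcon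
    rw [ValuationSubring.mem_nonunits_iff, h3] at h1
    exact lt_irrefl _ h1
  have h4 : ζ ^ (ℓ - 1) = 1 := by
    have hζ0 : ζ ≠ 0 := hζ.ne_zero hN.ne
    have h5 : ζ * ζ ^ (ℓ - 1) = ζ * 1 := by
      rw [← pow_succ', Nat.sub_add_cancel hℓ.one_le, mul_one]
      exact h2.symm
    exact mul_left_cancel₀ hζ0 h5
  exact hζ.dvd_of_pow_eq_one _ h4

end Fermat.Agent.S56.H14
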