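import Mathlib

/-!
# S56 / TWP (helper14): eigenvalues of mutually dividing endomorphisms in dimension 2

If `f` has characteristic polynomial `(X - α)(X - β)` with `α ≠ β` on a 2-dimensional space and
`g = f ^ n`, `g ^ j = f`, then `g` has characteristic polynomial `(X - α ^ n)(X - β ^ n)` with
`α ^ n ≠ β ^ n`.
-/

set_option autoImplicit false

open Polynomial

namespace Fermat.Agent.S56.H14

variable {k V : Type*} [Field k] [AddCommGroup V] [Module k V] [Module.Finite k V]

omit [Module.Finite k V] in
theorem pow_apply_eigenvector (f : Module.End k V) (a : k) (v : V) (hv : f v = a • v) (n : ℕ) :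
    (f ^ n) v = a ^ n • v := by
  induction n with
  | zero => simp
  | succ n ih =>
    rw [pow_succ, Module.End.mul_apply, hv, map_smul, ih, smul_smul, pow_succ, mul_comm]

/-- A monic polynomial of degree `2` with two distinct roots. -/
theorem eq_mul_of_roots {P : k[X]} (hP : P.Monic) (hdeg : P.natDegree = 2) {a b : k}
    (hab : a ≠ b) (ha : P.IsRoot a) (hb : P.IsRoot b) : P = (X - C a) * (X - C b) := by
  have h1 : (X - C a) * (X - C b) ∣ P := by
    apply IsCoprime.mul_dvd
    · exact Polynomial.isCoprime_X_sub_C_of_isUnit_sub (sub_ne_zero.mpr hab).isUnit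
    · exact Polynomial.dvd_iff_isRoot.mpr ha
    · exact Polynomial.dvd_iff_isRoot.mpr hb
  have hm : ((X - C a) * (X - C b)).Monic := (monic_X_sub_C a).mul (monic_X_sub_C b)
  have hd : ((X - C a) * (X - C b)).natDegree = 2 := by
    rw [Polynomial.natDegree_mul (X_sub_C_ne_zero a) (X_sub_C_ne_zero b), natDegree_X_sub_C,
      natDegree_X_sub_C]
  exact Polynomial.eq_of_monic_of_dvd_of_natDegree_le hm hP h1 (by rw [hd, hdeg])

/-- Distinct eigenvalues pass to an endomorphism `g` with `g = f ^ n` and `g ^ j = f`. -/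
theorem exists_charpoly_of_pow (h2 : Module.finrank k V = 2) (f g : Module.End k V) (n j : ℕ)
    (hg : g = f ^ n) (hf : g ^ j = f) {α β : k} (hαβ : α ≠ β)
    (hch : LinearMap.charpoly f = (X - C α) * (X - C β)) :
    ∃ α' β' : k, α' ≠ β' ∧ LinearMap.charpoly g = (X - C α') * (X - C β') := by
  have hα : f.HasEigenvalue α := by
    rw [Module.End.hasEigenvalue_iff_isRoot_charpoly, hch]
    simp
  have hβ : f.HasEigenvalue β := by
    rw [Module.End.hasEigenvalue_iff_isRoot_charpoly, hch]
    simp
  obtain ⟨v, hv⟩ := hα.exists_hasEigenvector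
  obtain ⟨w, hw⟩ := hβ.exists_hasEigenvector
  have hv1 : f v = α • v := hv.apply_eq_smul
  have hw1 : f w = β • w := hw.apply_eq_smul
  have hgv : g v = α ^ n • v := by rw [hg]; exact pow_apply_eigenvector f α v hv1 n
  have hgw : g w = β ^ n • w := by rw [hg]; exact pow_apply_eigenvector f β w hw1 n
  have hαj : (α ^ n) ^ j = α := by
    have h := pow_apply_eigenvector g (α ^ n) v hgv j
    rw [hf, hv1] at h
    exact (smul_left_injective k hv.2 h).symm
  have hβj : (β ^ n) ^ j = β := by
    have h := pow_apply_eigenvector g (β ^ n) w hgw j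
    rw [hf, hw1] at h
    exact (smul_left_injective k hw.2 h).symm
  have hne : α ^ n ≠ β ^ n := by
    intro h
    apply hαβ
    rw [← hαj, ← hβj, h]
  refine ⟨α ^ n, β ^ n, hne, ?_⟩
  apply eq_mul_of_roots (LinearMap.charpoly_monic g)
  · rw [LinearMap.charpoly_natDegree, h2]
  · exact hne
  · rw [← Module.End.hasEigenvalue_iff_isRoot_charpoly]
    exact Module.End.hasEigenvalue_of_hasEigenvector
      ⟨Module.End.mem_eigenspace_iff.mpr hgv, hv.2⟩
  · rw [← Module.End.hasEigenvalue_iff_isRoot_charpoly]
    exact Module.End.hasEigenvalue_of_hasEigenvector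
      ⟨Module.End.mem_eigenspace_iff.mpr hgw, hw.2⟩

end Fermat.Agent.S56.H14
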