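import Fermat.Agent.S55.PT.Spec

/-!
# Row S56 — REC-Q input: the local invariant map is injective when `μ_p` is locally trivial
(helper14)

S55's interface (`PT/Spec.lean`, A6 = `TopLocIndSpec`) says that `inv_v ∘ aug_*` is bijective on
`H²(G_v, Ind_W μ)` for every normal local level `W` acting trivially on `μ`.  For `W = ⊤`
(possible exactly when `G_v` acts trivially on `μ_p`, e.g. `v ≡ 1 mod p`) the augmentation
`Ind_⊤ μ → μ` is an isomorphism, hence `inv_v` itself is bijective on `H²(G_v, μ_p)`.

* `injective_of_bijective_comp_indAug` — abstract form (any group, level system, module);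
* `inv_bijective_of_topLocInd`, `inv_injective_of_topLocInd` — the arithmetic instance.

Nothing unproved in this file.
-/

set_option autoImplicit false

noncomputable section

namespace Fermat.Agent.S56.H14

open groupCohomology Fermat.Agent.S55.PT

section Abstract

variable {k : Type} [Field k] {G : Type} [Group G] (L : LevelSys G) (N : Rep.{0, 0, 0} k G)
  (U : Subgroup G)

/-- The section `m ↦ single 1 m` of the augmentation `Ind_U N → N`. -/
def indUnit : N →ₗ[k] ((G ⧸ U) →₀ N) := Finsupp.lsingle ((1 : G) : G ⧸ U)

lemma indAug_indUnit (m : N) : indAug U N (indUnit N U m) = m :=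
  indAug_single U N _ m

/-- If `U` is the whole group, `m ↦ single 1 m` is equivariant. -/
lemma indUnit_equivariant (hU : ∀ g : G, g ∈ U) :
    IsEquivariant (A := N) (B := indRep U N) (indUnit N U) := by
  intro g m
  show (Finsupp.single ((1 : G) : G ⧸ U) (N.ρ g m) : (G ⧸ U) →₀ N) =
    (indRep U N).ρ g (Finsupp.single ((1 : G) : G ⧸ U) m : (G ⧸ U) →₀ N)
  rw [indRep_ρ_single]
  congr 1
  show ((1 : G) : G ⧸ U) = ((g * 1 : G) : G ⧸ U)
  rw [mul_one, QuotientGroup.eq]
  exact U.mul_mem (U.inv_mem (U.one_mem)) (hU g)

/-- If `U` is the whole group and `f ∘ aug_*` is injective on `H²(Ind_U N)`, then `f` is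
injective on `H²(N)`. -/
theorem injective_of_injective_comp_indAug (hU : ∀ g : G, g ∈ U) {X : Type*} [AddCommGroup X]
    [Module k X] (f : L.H2 N →ₗ[k] X)
    (h : Function.Injective (f ∘ₗ
      pushH2 (A := indRep U N) (B := N) (indAug U N) (indAug_equivariant U N) L)) :
    Function.Injective f := by
  rw [injective_iff_map_eq_zero]
  intro z hz
  have h1 : pushH2 (A := indRep U N) (B := N) (indAug U N) (indAug_equivariant U N) L
      (pushH2 (A := N) (B := indRep U N) (indUnit N U) (indUnit_equivariant N U hU) L z) = z := by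
    obtain ⟨c, rfl⟩ := L.H2π_surjective N z
    rw [pushH2_mk, pushH2_mk]
    congr 1
    apply Subtype.ext
    funext x
    simp only [coe_pushZ2, Function.comp_apply, indAug_indUnit]
  have h2 : (f ∘ₗ pushH2 (A := indRep U N) (B := N) (indAug U N) (indAug_equivariant U N) L)
      (pushH2 (A := N) (B := indRep U N) (indUnit N U) (indUnit_equivariant N U hU) L z) = 0 := by
    rw [LinearMap.comp_apply, h1, hz]
  have h3 := (injective_iff_map_eq_zero _).1 h _ h2
  rw [← h1, h3, map_zero]

/-- If `U` is the whole group and `f ∘ aug_*` is surjective, then `f` is surjective. -/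
theorem surjective_of_surjective_comp_indAug {X : Type*} [AddCommGroup X]
    [Module k X] (f : L.H2 N →ₗ[k] X)
    (h : Function.Surjective (f ∘ₗ
      pushH2 (A := indRep U N) (B := N) (indAug U N) (indAug_equivariant U N) L)) :
    Function.Surjective f := fun x => by
  obtain ⟨y, hy⟩ := h x
  exact ⟨_, hy⟩

end Abstract

section Arith

variable {p : ℕ} [Fact p.Prime] {S : Finset Nat.Primes}

/-- The whole local Galois group is a local level. -/
lemma top_mem_localLevels (q : Nat.Primes) : (⊤ : Subgroup (Gl q)) ∈ (localLevels q).levels := by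
  refine ⟨⊥, inferInstance, ?_⟩
  rw [IntermediateField.fixingSubgroup_bot, Subgroup.comap_top]

/-- **`inv_v` is bijective on `H²(G_v, μ_p)`** when `G_v` acts trivially on `μ_p`
(from S55's A6 with `W = ⊤`). -/
theorem inv_bijective_of_topLocInd {inv : InvFamily p S} (h : TopLocIndSpec inv) (v : ↥S)
    (hμ : ∀ s : Gl v.1, (muLoc p v.1).ρ s = 1) : Function.Bijective (inv v) := by
  have hb := h v ⊤ (top_mem_localLevels v.1) inferInstance (fun s _ => hμ s)
  exact ⟨injective_of_injective_comp_indAug (localLevels v.1) (muLoc p v.1) ⊤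
      (fun _ => Subgroup.mem_top _) (inv v) hb.1,
    surjective_of_surjective_comp_indAug (localLevels v.1) (muLoc p v.1) ⊤ (inv v) hb.2⟩

theorem inv_injective_of_topLocInd {inv : InvFamily p S} (h : TopLocIndSpec inv) (v : ↥S)
    (hμ : ∀ s : Gl v.1, (muLoc p v.1).ρ s = 1) : Function.Injective (inv v) :=
  (inv_bijective_of_topLocInd h v hμ).1

end Arith

end Fermat.Agent.S56.H14

end
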