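import Fermat.Agent.S55.PT.Top

/-!
# Row S56 — INVREC, generic core: `H²` with coefficients in `W(χ) = W ⊗ k(χ)` (helper14)

`G` a group with a level system `L`, `k` a field, `χ : G → kˣ` a character, `W` a
finite-dimensional `k`-vector space, `twTriv χ W` the module `W` with `G` acting through `χ`.
A linear map `inv : H²(G, k(χ)) → k` extends to `H²(G, W(χ)) → W`:

* `eq_zero_of_forall_pushH2_dual` : a class `x ∈ H²(G, W(χ))` all of whose coordinates
  `f_* x ∈ H²(G, k(χ))` (`f ∈ W^*`) vanish is zero;
* `extInv inv : H²(G, W(χ)) →ₗ[k] W`, characterised by `f (extInv inv x) = inv (f_* x)`;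
* `extInv_pushH2_endo` : `extInv` commutes with every `k`-linear endomorphism `T` of `W`
  (so it is linear over any field `K ⊇ k` acting on `W`);
* `extInv_eq_zero_iff` : if `inv` is injective then `extInv inv x = 0 ↔ x = 0`.

Nothing unproved in this file; Mathlib + `S55/PT` only.
-/

set_option autoImplicit false

noncomputable section

namespace Fermat.Agent.S56.H14

open groupCohomology Fermat.Agent.S55.PT

variable {k : Type} [Field k] {G : Type} [Group G] (L : LevelSys G) (χ : G →* kˣ)
  (W : Type) [AddCommGroup W] [Module k W]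

/-- every `k`-linear map `W → W'` is equivariant for the twisted trivial actions -/
lemma twTriv_isEquivariant {W' : Type} [AddCommGroup W'] [Module k W'] (f : W →ₗ[k] W') :
    IsEquivariant (A := twTriv χ W) (B := twTriv χ W') f := by
  intro g w
  rw [twTriv_ρ_apply, twTriv_ρ_apply, map_smul]

/-- every functional on `W` is an equivariant map `W(χ) → k(χ)` -/
lemma dual_isEquivariant (f : Module.Dual k W) :
    IsEquivariant (A := twTriv χ W) (B := ofChar χ) f :=
  twTriv_isEquivariant χ W f

variable {W}

/-- the coordinate `f_* : H²(G, W(χ)) → H²(G, k(χ))` of a functional `f` -/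
def pushDual (f : Module.Dual k W) : L.H2 (twTriv χ W) →ₗ[k] L.H2 (ofChar χ) :=
  pushH2 (A := twTriv χ W) (B := ofChar χ) f (dual_isEquivariant χ W f) L

lemma pushDual_add (f f' : Module.Dual k W) (x : L.H2 (twTriv χ W)) :
    pushDual L χ (f + f') x = pushDual L χ f x + pushDual L χ f' x :=
  pushH2_add (A := twTriv χ W) (B := ofChar χ) L (dual_isEquivariant χ W f)
    (dual_isEquivariant χ W f') x

lemma pushDual_smul (a : k) (f : Module.Dual k W) (x : L.H2 (twTriv χ W)) :
    pushDual L χ (a • f) x = a • pushDual L χ f x :=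
  pushH2_smul (A := twTriv χ W) (B := ofChar χ) L a (dual_isEquivariant χ W f) x

/-- `x ↦ (f ↦ inv (f_* x))`, with values in the double dual of `W` -/
def extInvDual (inv : L.H2 (ofChar χ) →ₗ[k] k) :
    L.H2 (twTriv χ W) →ₗ[k] Module.Dual k (Module.Dual k W) where
  toFun x :=
    { toFun := fun f => inv (pushDual L χ f x)
      map_add' := fun f f' => by rw [pushDual_add, map_add]
      map_smul' := fun a f => by rw [pushDual_smul, map_smul, RingHom.id_apply] }
  map_add' x y := by
    apply LinearMap.ext
    intro f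
    simp only [LinearMap.coe_mk, AddHom.coe_mk, map_add, LinearMap.add_apply]
  map_smul' a x := by
    apply LinearMap.ext
    intro f
    simp only [LinearMap.coe_mk, AddHom.coe_mk, map_smul, RingHom.id_apply,
      LinearMap.smul_apply]

@[simp] lemma extInvDual_apply (inv : L.H2 (ofChar χ) →ₗ[k] k) (x : L.H2 (twTriv χ W))
    (f : Module.Dual k W) : extInvDual L χ inv x f = inv (pushDual L χ f x) := rfl

variable [FiniteDimensional k W]

/-- **The extension of `inv` to coefficients in `W(χ)`.** -/
def extInv (inv : L.H2 (ofChar χ) →ₗ[k] k) : L.H2 (twTriv χ W) →ₗ[k] W :=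
  (Module.evalEquiv k W).symm.toLinearMap ∘ₗ extInvDual L χ inv

/-- characterisation: `f (extInv inv x) = inv (f_* x)` -/
lemma dual_extInv (inv : L.H2 (ofChar χ) →ₗ[k] k) (x : L.H2 (twTriv χ W))
    (f : Module.Dual k W) : f (extInv L χ inv x) = inv (pushDual L χ f x) := by
  have h : Module.evalEquiv k W (extInv L χ inv x) = extInvDual L χ inv x := by
    simp only [extInv, LinearMap.comp_apply, LinearEquiv.coe_coe, LinearEquiv.apply_symm_apply]
  have h2 := LinearMap.congr_fun h f
  rwa [Module.evalEquiv_apply, Module.Dual.eval_apply] at h2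

lemma extInv_eq_of_forall_dual (inv : L.H2 (ofChar χ) →ₗ[k] k) (x : L.H2 (twTriv χ W)) (w : W)
    (h : ∀ f : Module.Dual k W, f w = inv (pushDual L χ f x)) : extInv L χ inv x = w := by
  apply sub_eq_zero.1
  apply (Module.forall_dual_apply_eq_zero_iff k _).1
  intro f
  rw [map_sub, dual_extInv, h, sub_self]

/-- `extInv` commutes with linear endomorphisms of `W`. -/
theorem extInv_pushH2_endo (inv : L.H2 (ofChar χ) →ₗ[k] k) (T : W →ₗ[k] W)
    (x : L.H2 (twTriv χ W)) :
    extInv L χ inv (pushH2 (A := twTriv χ W) (B := twTriv χ W) T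
      (twTriv_isEquivariant χ W T) L x) = T (extInv L χ inv x) := by
  apply extInv_eq_of_forall_dual
  intro f
  have h1 : f (T (extInv L χ inv x)) = (f ∘ₗ T) (extInv L χ inv x) := rfl
  rw [h1, dual_extInv]
  congr 1
  obtain ⟨c, rfl⟩ := L.H2π_surjective _ x
  rfl

/-- A class all of whose coordinates vanish is zero. -/
theorem eq_zero_of_forall_pushDual (x : L.H2 (twTriv χ W))
    (h : ∀ f : Module.Dual k W, pushDual L χ f x = 0) : x = 0 := by
  obtain ⟨c, rfl⟩ := L.H2π_surjective _ x
  rw [LevelSys.H2π_eq_zero_iff]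
  let b := Module.finBasis k W
  have hy : ∀ i, ∃ y : G → k, L.IsLC₁ y ∧
      (d₁₂ (ofChar χ)).hom y = (b.coord i) ∘ (c : G × G → W) := by
    intro i
    have hi := h (b.coord i)
    have hi' : L.H2π (ofChar χ) (pushZ2 (A := twTriv χ W) (B := ofChar χ) (b.coord i)
        (dual_isEquivariant χ W (b.coord i)) L c) = 0 := hi
    rw [LevelSys.H2π_eq_zero_iff] at hi'
    obtain ⟨y, hy, hd⟩ := hi'
    exact ⟨y, hy, hd⟩
  choose y hyLC hyd using hy
  refine ⟨fun g => ∑ i, y i g • b i, ?_, ?_⟩
  · -- level-constant
    have : ∀ s : Finset (Fin (Module.finrank k W)),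
        L.IsLC₁ (fun g => ∑ i ∈ s, y i g • b i) := by
      intro s
      induction s using Finset.induction_on with
      | empty => simpa using L.isLC₁_const (0 : W)
      | insert a s ha ih =>
        have h1 : (fun g => ∑ i ∈ insert a s, y i g • b i)
            = (fun g => y a g • b a) + (fun g => ∑ i ∈ s, y i g • b i) := by
          funext g
          simp only [Pi.add_apply, Finset.sum_insert ha]
        rw [h1]
        exact LevelSys.IsLC₁.add (LevelSys.IsLC₁.comp (hyLC a) (fun t => t • b a)) ih
    exact this Finset.univ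
  · funext ⟨g, h'⟩
    have hcoord : ∀ i, (b.coord i) (c.1 (g, h'))
        = (χ g : k) * y i h' - y i (g * h') + y i g := by
      intro i
      have := congrFun (hyd i) (g, h')
      simp only [d₁₂_hom_apply, Function.comp_apply] at this
      rw [← this, ofChar_ρ_apply]
    have hsum : c.1 (g, h') = ∑ i, (b.coord i) (c.1 (g, h')) • b i :=
      (b.sum_repr (c.1 (g, h'))).symm
    show (d₁₂ (twTriv χ W)).hom (fun g => ∑ i, y i g • b i) (g, h') = c.1 (g, h')
    rw [hsum]
    have hρ : ∀ w : W, (twTriv χ W).ρ g w = (χ g : k) • w := twTriv_ρ_apply χ W g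
    have hd : (d₁₂ (twTriv χ W)).hom (fun g => ∑ i, y i g • b i) (g, h')
        = (twTriv χ W).ρ g (∑ i, y i h' • b i) - ∑ i, y i (g * h') • b i
          + ∑ i, y i g • b i := rfl
    rw [hd, hρ]
    simp only [hcoord, Finset.smul_sum, smul_smul, add_smul, sub_smul, Finset.sum_add_distrib,
      Finset.sum_sub_distrib]

/-- If `inv` is injective, so is its extension `extInv`. -/
theorem extInv_eq_zero_iff {inv : L.H2 (ofChar χ) →ₗ[k] k} (hinv : Function.Injective inv)
    (x : L.H2 (twTriv χ W)) : extInv L χ inv x = 0 ↔ x = 0 := by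
  constructor
  · intro h0
    apply eq_zero_of_forall_pushDual
    intro f
    apply hinv
    rw [map_zero, ← dual_extInv, h0, map_zero]
  · rintro rfl
    exact map_zero _

end Fermat.Agent.S56.H14

end
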