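import Fermat.Agent.S56.H14.Conj
import Fermat.Agent.S56.H14.Eigen

/-!
# S56 / TWP3 (helper14): one Taylor–Wiles prime

From a Taylor–Wiles element `σ` (fixing `μ_{p^(n+1)}`, distinct eigenvalues, and — for a given
twisted cocycle `c` — `c σ ∉ (Ad ρ̄(σ) - 1) ad⁰`) and the Frobenius division theorem
(`Lib/Cheb`, Tier 1) we produce a prime `q ∉ T`, `q ≡ 1 mod p^(n+1)`, such that every Frobenius
element over `q` has distinct eigenvalues and `c` is not locally trivial at `q`.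
-/

set_option autoImplicit false

open Polynomial
open scoped Pointwise

namespace Fermat.Agent.S56.H14

open Fermat.Agent.S56 Fermat.Agent.Lib.Cheb.Spec

/-- The field generated by the `N`-th roots of unity is a finite extension of `ℚ`. -/
theorem exists_cyclotomic_level (N : ℕ) (hN : 0 < N) :
    ∃ L : IntermediateField ℚ Qb, FiniteDimensional ℚ L ∧ ∀ μ : Qb, μ ^ N = 1 → μ ∈ L := by
  refine ⟨IntermediateField.adjoin ℚ ((Polynomial.nthRootsFinset N (1 : Qb) : Finset Qb) : Set Qb),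
    ?_, fun μ hμ => ?_⟩
  · apply IntermediateField.finiteDimensional_adjoin
    intro x _
    exact ((AlgebraicClosure.isAlgebraic ℚ).isAlgebraic x).isIntegral
  · apply IntermediateField.subset_adjoin
    rw [Finset.mem_coe, Polynomial.mem_nthRootsFinset hN]
    exact hμ

theorem pow_fixes {σ : GQ} {x : Qb} (h : σ x = x) (n : ℕ) : (σ ^ n) x = x := by
  induction n with
  | zero => rfl
  | succ n ih => rw [pow_succ, AlgEquiv.mul_apply, h, ih]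

/-- If `τ` and `σ` agree on `E` then `τ = σ * η` with `η` fixing `E`. -/
theorem exists_eq_mul_of_agree (E : IntermediateField ℚ Qb) {τ σ : GQ}
    (h : ∀ x ∈ E, τ x = σ x) : ∃ η : GQ, τ = σ * η ∧ ∀ x ∈ E, η x = x := by
  refine ⟨σ⁻¹ * τ, by group, fun x hx => ?_⟩
  rw [AlgEquiv.mul_apply, h x hx]
  exact Fermat.Agent.Lib.Cheb.H476.inv_apply_apply σ x

variable {k : Type} [Field k] (ρbar : ResidualGaloisRep k)

/-- A homomorphism factoring through the level `L` takes the same value on elements agreeing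
on a field containing `L`. -/
theorem rho_eq_of_agree {L E : IntermediateField ℚ Qb} (hLE : L ≤ E)
    (hL : ∀ σ : GQ, (∀ x ∈ L, σ x = x) → ρbar.ρ σ = 1) {τ σ : GQ}
    (h : ∀ x ∈ E, τ x = σ x) : ρbar.ρ τ = ρbar.ρ σ := by
  obtain ⟨η, rfl, hη⟩ := exists_eq_mul_of_agree E h
  rw [map_mul, hL η (fun x hx => hη x (hLE hx)), mul_one]

/-- Inverses in the image of `ρ̄`. -/
theorem rho_inv_eq_of_rho_eq {τ σ : GQ} (h : ρbar.ρ τ = ρbar.ρ σ) :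
    ρbar.ρ τ⁻¹ = ρbar.ρ σ⁻¹ := by
  calc ρbar.ρ τ⁻¹ = ρbar.ρ τ⁻¹ * (ρbar.ρ σ * ρbar.ρ σ⁻¹) := by
        rw [rho_mul_rho_inv, mul_one]
    _ = (ρbar.ρ τ⁻¹ * ρbar.ρ τ) * ρbar.ρ σ⁻¹ := by rw [← h, mul_assoc]
    _ = ρbar.ρ σ⁻¹ := by rw [rho_inv_mul_rho, one_mul]

/-- **Core of TWP3.**  Frobenius division applied to the compositum of the levels of `ρ̄`, of a
function `c` and of `μ_{p^(n+1)}`. -/
theorem exists_frobenius_data (HF : FrobeniusDivisionStatement) {p : ℕ} (hp : p.Prime)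
    (c : GQ → Module.End k ρbar.V)
    (hclevel : ∃ L : IntermediateField ℚ Qb, FiniteDimensional ℚ L ∧
      ∀ σ τ : GQ, (∀ x ∈ L, τ x = x) → c (σ * τ) = c σ)
    (n : ℕ) (σ : GQ) (hσfix : ∀ μ : Qb, μ ^ p ^ (n + 1) = 1 → σ μ = μ) (T : Finset ℕ) :
    ∃ (ℓ : ℕ) (A : ValuationSubring Qb) (τ : GQ) (e j : ℕ),
      ℓ.Prime ∧ ℓ ∉ T ∧ ℓ ≠ p ∧ A.LiesOverPrime ℓ ∧ A.IsFrobeniusAt τ ℓ ∧
      (∀ ι ∈ A.inertiaSubgroupIn ℚ, ρbar.ρ ι = 1) ∧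
      ρbar.ρ τ = ρbar.ρ σ ^ e ∧ ρbar.ρ τ ^ j = ρbar.ρ σ ∧
      (∀ μ : Qb, μ ^ p ^ (n + 1) = 1 → τ μ = μ) ∧ c (τ ^ j) = c σ := by
  obtain ⟨Lρ, hLρfin, hLρ⟩ := ρbar.factorsThroughFiniteLevel
  obtain ⟨Lc, hLcfin, hLc⟩ := hclevel
  obtain ⟨Lμ, hLμfin, hLμ⟩ := exists_cyclotomic_level (p ^ (n + 1)) (pow_pos hp.pos _)
  have hE : FiniteDimensional ℚ ↥(Lρ ⊔ Lc ⊔ Lμ) := inferInstance
  have h1 : Lρ ≤ Lρ ⊔ Lc ⊔ Lμ := le_sup_left.trans le_sup_left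
  have h2 : Lc ≤ Lρ ⊔ Lc ⊔ Lμ := le_sup_right.trans le_sup_left
  have h3 : Lμ ≤ Lρ ⊔ Lc ⊔ Lμ := le_sup_right
  obtain ⟨ℓ, A, τ, e, j, hℓ, hℓT, hA, hτ, hin, hk, hj⟩ :=
    HF (Lρ ⊔ Lc ⊔ Lμ) hE σ (insert p T)
  refine ⟨ℓ, A, τ, e, j, hℓ, fun h => hℓT (Finset.mem_insert_of_mem h),
    fun h => hℓT (h ▸ Finset.mem_insert_self p T), hA, hτ, ?_, ?_, ?_, ?_, ?_⟩
  · intro ι hι
    exact hLρ ι (fun x hx => hin ι hι x (h1 hx))
  · rw [← map_pow]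
    exact rho_eq_of_agree ρbar h1 hLρ hk
  · rw [← map_pow]
    exact rho_eq_of_agree ρbar h1 hLρ hj
  · intro μ hμ
    rw [hk μ (h3 (hLμ μ hμ))]
    exact pow_fixes (hσfix μ hμ) e
  · obtain ⟨η, hη1, hη2⟩ := exists_eq_mul_of_agree _ hj
    rw [hη1]
    exact hLc σ η (fun x hx => hη2 x (h2 hx))

/-- Every Frobenius element over `ℓ` has distinct eigenvalues as soon as one Frobenius element
`τ` (with `ρ̄` unramified there) satisfies `ρ̄ τ = ρ̄ σ ^ e`, `ρ̄ τ ^ j = ρ̄ σ` for a `σ` with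
distinct eigenvalues. -/
theorem distinct_eigenvalues_of_frobenius {ℓ : ℕ} (hℓ : ℓ.Prime) {A : ValuationSubring Qb}
    (hA : A.LiesOverPrime ℓ) {τ σ : GQ} {e j : ℕ} (hτ : A.IsFrobeniusAt τ ℓ)
    (hin : ∀ ι ∈ A.inertiaSubgroupIn ℚ, ρbar.ρ ι = 1)
    (he : ρbar.ρ τ = ρbar.ρ σ ^ e) (hj : ρbar.ρ τ ^ j = ρbar.ρ σ)
    (hσ : ∃ α β : k, α ≠ β ∧ LinearMap.charpoly (ρbar.ρ σ) = (X - C α) * (X - C β))
    (P : ValuationSubring Qb) (hP : P.LiesOverPrime ℓ) (φ : GQ) (hφ : P.IsFrobeniusAt φ ℓ) :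
    ∃ α β : k, α ≠ β ∧ LinearMap.charpoly (ρbar.ρ φ) = (X - C α) * (X - C β) := by
  have hur : ρbar.IsUnramifiedAt ℓ := fun A' hA' =>
    Fermat.Agent.Lib.Cheb.H476.map_inertia_eq_one_of_liesOver ρbar.ρ hℓ hA hA' hin
  rw [Fermat.Agent.Lib.Cheb.H476.charpoly_eq_of_isFrobeniusAt ρbar hℓ hur hA hP hτ hφ]
  obtain ⟨α, β, hαβ, hch⟩ := hσ
  exact exists_charpoly_of_pow ρbar.finrank_eq (ρbar.ρ σ) (ρbar.ρ τ) e j he hj hαβ hch

/-- **TWP3 without cocycle.** -/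
theorem exists_twPrime (HF : FrobeniusDivisionStatement) {p : ℕ} (hp : p.Prime)
    (n : ℕ) (σ : GQ) (hσfix : ∀ μ : Qb, μ ^ p ^ (n + 1) = 1 → σ μ = μ)
    (hσ : ∃ α β : k, α ≠ β ∧ LinearMap.charpoly (ρbar.ρ σ) = (X - C α) * (X - C β))
    (T : Finset ℕ) :
    ∃ q : ℕ, q.Prime ∧ q ∉ T ∧ p ^ (n + 1) ∣ q - 1 ∧
      (∀ P : ValuationSubring Qb, P.LiesOverPrime q → ∀ φ : GQ, P.IsFrobeniusAt φ q →
        ∃ α β : k, α ≠ β ∧ LinearMap.charpoly (ρbar.ρ φ) = (X - C α) * (X - C β)) := by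
  obtain ⟨ℓ, A, τ, e, j, hℓ, hℓT, hℓp, hA, hτ, hin, he, hj, hτfix, -⟩ :=
    exists_frobenius_data ρbar HF hp (fun _ => 0)
      ⟨⊥, inferInstance, fun _ _ _ => rfl⟩ n σ hσfix T
  exact ⟨ℓ, hℓ, hℓT, pow_dvd_sub_one_of_isFrobeniusAt hp hℓ hℓp hA hτ hτfix,
    distinct_eigenvalues_of_frobenius ρbar hℓ hA hτ hin he hj hσ⟩

/-- **TWP3.**  One Taylor–Wiles prime at which a given twisted cocycle is not locally
trivial. -/
theorem exists_twPrime_not_locTrivAt (HF : FrobeniusDivisionStatement) {p : ℕ} (hp : p.Prime)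
    {c : GQ → Module.End k ρbar.V} (hc : IsTwCocycle ρbar p c)
    (n : ℕ) (σ : GQ) (hσfix : ∀ μ : Qb, μ ^ p ^ (n + 1) = 1 → σ μ = μ)
    (hσ : ∃ α β : k, α ≠ β ∧ LinearMap.charpoly (ρbar.ρ σ) = (X - C α) * (X - C β))
    (hσc : ∀ m : Module.End k ρbar.V, LinearMap.trace k ρbar.V m = 0 →
      c σ ≠ ρbar.ρ σ * m * ρbar.ρ σ⁻¹ - m)
    (T : Finset ℕ) :
    ∃ q : ℕ, q.Prime ∧ q ∉ T ∧ p ^ (n + 1) ∣ q - 1 ∧
      (∀ P : ValuationSubring Qb, P.LiesOverPrime q → ∀ φ : GQ, P.IsFrobeniusAt φ q →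
        ∃ α β : k, α ≠ β ∧ LinearMap.charpoly (ρbar.ρ φ) = (X - C α) * (X - C β)) ∧
      ¬ LocTrivAt ρbar p q c := by
  obtain ⟨ℓ, A, τ, e, j, hℓ, hℓT, hℓp, hA, hτ, hin, he, hj, hτfix, hcj⟩ :=
    exists_frobenius_data ρbar HF hp c hc.level n σ hσfix T
  refine ⟨ℓ, hℓ, hℓT, pow_dvd_sub_one_of_isFrobeniusAt hp hℓ hℓp hA hτ hτfix,
    distinct_eigenvalues_of_frobenius ρbar hℓ hA hτ hin he hj hσ, fun hloc => ?_⟩
  obtain ⟨m, hm0, hm⟩ := exists_isTwCoboundaryOn_of_locTrivAt ρbar p hp.pos hc hℓ hloc A hA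
  have hτD : τ ^ j ∈ A.decompositionSubgroup ℚ := pow_mem hτ.mem_decompositionSubgroup j
  have hexp : IsCycExp p (τ ^ j) 1 :=
    isCycExp_one_of_fixes (fun μ hμ => pow_fixes (fixes_of_fixes_pow hτfix μ hμ) j)
  have h1 := hm (τ ^ j) hτD 1 hexp
  rw [hcj, twAd, Nat.cast_one, one_smul] at h1
  have h2 : ρbar.ρ (τ ^ j) = ρbar.ρ σ := by rw [map_pow, hj]
  rw [rho_inv_eq_of_rho_eq ρbar h2, h2] at h1
  exact hσc m hm0 h1

end Fermat.Agent.S56.H14
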