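import Fermat.Agent.S56.H14.OnePrime

/-!
# S56 / TWP (helper14): Taylor–Wiles primes from the Taylor–Wiles element

`twPrimesOfElement : TWPrimesOfElementStatement`, i.e.
`TWElementStatement → Lib.Cheb.Spec.FrobeniusDivisionStatement → TWPrimesStatement`.

Induction (TWP4): for a subspace `W` of the dual Selmer frame `D` with `dim W ≤ r` and a finite
set `T` of excluded primes there are `r` distinct Taylor–Wiles primes outside `T` such that no
nonzero `c ∈ W` is locally trivial at all of them.  Each step picks `c₀ ≠ 0` in `W`, a prime `q`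
at which `c₀` is not locally trivial (TWP3), and passes to
`W' = {c ∈ W : c is a coboundary on the decomposition group of A}`, `A` a fixed valuation
subring over `q` (legitimate by TWP2).
-/

set_option autoImplicit false

open Polynomial IsLocalRing
open scoped Pointwise

namespace Fermat.Agent.S56.H14

open Fermat.Agent.S56 Fermat.Agent.Lib.Cheb.Spec

variable {k : Type} [Field k] (ρbar : ResidualGaloisRep k) (p : ℕ)

/-- The elements of `W` which are coboundaries on the subgroup `H`. -/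
def cobSubmodule (W : Submodule k (GQ → Module.End k ρbar.V)) (H : Subgroup GQ) :
    Submodule k (GQ → Module.End k ρbar.V) where
  carrier := {c | c ∈ W ∧ ∃ m, IsTwCoboundaryOn ρbar p H c m}
  add_mem' := by
    rintro c c' ⟨hc, m, hm0, hm⟩ ⟨hc', m', hm0', hm'⟩
    refine ⟨W.add_mem hc hc', m + m', by rw [map_add, hm0, hm0', add_zero], fun σ hσ a ha => ?_⟩
    rw [Pi.add_apply, hm σ hσ a ha, hm' σ hσ a ha, twAd_add]
    abel
  zero_mem' := ⟨W.zero_mem, 0, map_zero _, fun σ _ a _ => by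
    rw [Pi.zero_apply, twAd_zero, sub_zero]⟩
  smul_mem' := by
    rintro r c ⟨hc, m, hm0, hm⟩
    refine ⟨W.smul_mem r hc, r • m, by rw [map_smul, hm0, smul_zero], fun σ hσ a ha => ?_⟩
    rw [Pi.smul_apply, hm σ hσ a ha, twAd_smul, smul_sub]

theorem cobSubmodule_le (W : Submodule k (GQ → Module.End k ρbar.V)) (H : Subgroup GQ) :
    cobSubmodule ρbar p W H ≤ W := fun _ hc => hc.1

/-- The Taylor–Wiles conditions on a prime `q` (relative to `n` and the excluded set `T`). -/
def IsGoodPrime (n : ℕ) (T : Finset ℕ) (q : ℕ) : Prop :=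
  q.Prime ∧ q ∉ T ∧ p ^ (n + 1) ∣ q - 1 ∧
    ∀ P : ValuationSubring Qb, P.LiesOverPrime q → ∀ φ : GQ, P.IsFrobeniusAt φ q →
      ∃ α β : k, α ≠ β ∧ LinearMap.charpoly (ρbar.ρ φ) = (X - C α) * (X - C β)

theorem IsGoodPrime.mono {n : ℕ} {T T' : Finset ℕ} (h : T ⊆ T') {q : ℕ}
    (hq : IsGoodPrime ρbar p n T' q) : IsGoodPrime ρbar p n T q :=
  ⟨hq.1, fun hqT => hq.2.1 (h hqT), hq.2.2.1, hq.2.2.2⟩

/-- **TWP4.**  The induction. -/
theorem exists_killing_set (HF : FrobeniusDivisionStatement) (hp : p.Prime)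
    (hT1 : ∀ c : GQ → Module.End k ρbar.V, IsTwCocycle ρbar p c → ¬ IsTwCoboundary ρbar p c →
      ∀ n : ℕ, ∃ σ : GQ, (∀ μ : Qb, μ ^ p ^ (n + 1) = 1 → σ μ = μ) ∧
        (∃ α β : k, α ≠ β ∧ LinearMap.charpoly (ρbar.ρ σ) = (X - C α) * (X - C β)) ∧
        ∀ m : Module.End k ρbar.V, LinearMap.trace k ρbar.V m = 0 →
          c σ ≠ ρbar.ρ σ * m * ρbar.ρ σ⁻¹ - m)
    (hT2 : ∀ n : ℕ, ∃ σ : GQ, (∀ μ : Qb, μ ^ p ^ (n + 1) = 1 → σ μ = μ) ∧
        ∃ α β : k, α ≠ β ∧ LinearMap.charpoly (ρbar.ρ σ) = (X - C α) * (X - C β))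
    (D : Submodule k (GQ → Module.End k ρbar.V)) (hD : IsDualFrame ρbar p D) (n : ℕ) :
    ∀ (r : ℕ) (W : Submodule k (GQ → Module.End k ρbar.V)), W ≤ D → Module.finrank k W ≤ r →
      ∀ T : Finset ℕ, ∃ Q : Finset ℕ, Q.card = r ∧ (∀ q ∈ Q, IsGoodPrime ρbar p n T q) ∧
        ∀ c ∈ W, (∀ q ∈ Q, LocTrivAt ρbar p q c) → c = 0 := by
  have : Module.Finite k D := hD.finite
  intro r
  induction r with
  | zero =>
    intro W hWD hW T
    have : Module.Finite k W := Submodule.finiteDimensional_of_le hWD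
    have hbot : W = ⊥ := by
      rw [← Submodule.finrank_eq_zero]
      exact Nat.le_zero.mp hW
    refine ⟨∅, rfl, fun q hq => absurd hq (Finset.notMem_empty q), fun c hc _ => ?_⟩
    rw [hbot] at hc
    exact (Submodule.mem_bot k).mp hc
  | succ r ih =>
    intro W hWD hW T
    have : Module.Finite k W := Submodule.finiteDimensional_of_le hWD
    by_cases hbot : W = ⊥
    · -- pad with an arbitrary Taylor–Wiles prime
      obtain ⟨σ, hσfix, hσ⟩ := hT2 n
      obtain ⟨q, hq, hqT, hqdvd, hqeig⟩ := exists_twPrime ρbar HF hp n σ hσfix hσ T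
      obtain ⟨Q, hQcard, hQgood, -⟩ := ih W hWD (by rw [hbot, finrank_bot]; exact Nat.zero_le r)
        (insert q T)
      have hqQ : q ∉ Q := fun h => (hQgood q h).2.1 (Finset.mem_insert_self q T)
      refine ⟨insert q Q, by rw [Finset.card_insert_of_notMem hqQ, hQcard], ?_, ?_⟩
      · intro q' hq'
        rcases Finset.mem_insert.mp hq' with rfl | h
        · exact ⟨hq, hqT, hqdvd, hqeig⟩
        · exact (hQgood q' h).mono ρbar p (Finset.subset_insert q T)
      · intro c hc _
        rw [hbot] at hc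
        exact (Submodule.mem_bot k).mp hc
    · obtain ⟨c₀, hc₀W, hc₀⟩ := Submodule.exists_mem_ne_zero_of_ne_bot hbot
      have hc₀cocycle := hD.isTwCocycle c₀ (hWD hc₀W)
      have hc₀cob : ¬ IsTwCoboundary ρbar p c₀ := fun h => hc₀ (hD.inj c₀ (hWD hc₀W) h)
      obtain ⟨σ, hσfix, hσ, hσc⟩ := hT1 c₀ hc₀cocycle hc₀cob n
      obtain ⟨q, hq, hqT, hqdvd, hqeig, hqloc⟩ :=
        exists_twPrime_not_locTrivAt ρbar HF hp hc₀cocycle n σ hσfix hσ hσc T
      obtain ⟨A, hA⟩ := Fermat.Agent.S54.exists_valuationSubring_liesOver q hq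
      -- the subspace of classes locally trivial at `q`
      have hlt : cobSubmodule ρbar p W (A.decompositionSubgroup ℚ) < W := by
        refine lt_of_le_of_ne (cobSubmodule_le ρbar p W _) fun heq => ?_
        have h1 : c₀ ∈ cobSubmodule ρbar p W (A.decompositionSubgroup ℚ) := by
          rw [heq]; exact hc₀W
        exact hqloc ⟨A, hA, h1.2⟩
      have hrank : Module.finrank k (cobSubmodule ρbar p W (A.decompositionSubgroup ℚ)) ≤ r := by
        have := Submodule.finrank_lt_finrank_of_lt hlt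
        omega
      obtain ⟨Q, hQcard, hQgood, hQkill⟩ :=
        ih (cobSubmodule ρbar p W (A.decompositionSubgroup ℚ))
          ((cobSubmodule_le ρbar p W _).trans hWD) hrank (insert q T)
      have hqQ : q ∉ Q := fun h => (hQgood q h).2.1 (Finset.mem_insert_self q T)
      refine ⟨insert q Q, by rw [Finset.card_insert_of_notMem hqQ, hQcard], ?_, ?_⟩
      · intro q' hq'
        rcases Finset.mem_insert.mp hq' with rfl | h
        · exact ⟨hq, hqT, hqdvd, hqeig⟩
        · exact (hQgood q' h).mono ρbar p (Finset.subset_insert q T)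
      · intro c hc hloc
        apply hQkill c
        · exact ⟨hc, exists_isTwCoboundaryOn_of_locTrivAt ρbar p hp.pos
            (hD.isTwCocycle c (hWD hc)) hq (hloc q (Finset.mem_insert_self q Q)) A hA⟩
        · exact fun q' hq' => hloc q' (Finset.mem_insert_of_mem hq')

/-- **TWP.**  Taylor–Wiles primes from the Taylor–Wiles element and Frobenius density. -/
theorem twPrimesOfElement : TWPrimesOfElementStatement := by
  intro H3 HF 𝒪 _ _ _ _ _ p ρbar S Smin hyp D hD n
  obtain ⟨hT1, hT2⟩ := H3 𝒪 p ρbar S Smin hyp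
  obtain ⟨Q, hQcard, hQgood, hQkill⟩ :=
    exists_killing_set ρbar p HF hyp.hp hT1 hT2 D hD n (Module.finrank (ResidueField 𝒪) D) D
      le_rfl le_rfl S
  refine ⟨Q.orderEmbOfFin hQcard, (Q.orderEmbOfFin hQcard).injective, fun i => ?_, fun i => ?_, ?_⟩
  · have h := hQgood _ (Q.orderEmbOfFin_mem hQcard i)
    exact ⟨h.1, h.2.1, h.2.2.1⟩
  · exact (hQgood _ (Q.orderEmbOfFin_mem hQcard i)).2.2.2
  · rw [Finset.image_orderEmbOfFin_univ]
    exact hQkill

end Fermat.Agent.S56.H14
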